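import Fermat.Agent.LT.T3.M.GenSpec
import Fermat.Agent.LT.T3.BridgeT5
import Fermat.Agent.LT.T6.SpecArch

/-!
# Row LT, tower T3, station T3.18R (architect helper14): Eisenstein-killing test functions at
# REAL places, with `K_∞`-TYPES (weights `0, ±1`) -- THE CUT

OFF-MAIN.  Definitions and frozen Props only (tops: `R/Top*.lean`).  No hole, no opaque
constant, nothing assumed.  ADDITIVE: the closed tower T3 and the closed station T3.18M
(`origin/helper14@e703b3dd4`) are unchanged and imported as they are.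

## Why (request of helper797, note #17441 (2); the quadratic step `F/ℚ`)

The trace identity over `ℚ` is used twice, for the `K_∞`-types `τ = 1` and `τ =` weight `±1`
(`T5/Spec.lean` v4, `T6/SpecArch.lean`).  It needs Eisenstein-killing test functions over `ℚ`:
`T5.IsTestFn 𝔫 τ f`, `T5.IsEK μ f`, `T5.IsEK μ (T5.adjointFn f)`, for a datum
`(P, e, a₀)`, `(a₀) = ∏_{v ∈ P} 𝔭_v^{e_v}`, `a₀ ≡ 1 mod 𝔫`, `a₀ > 0` (over `ℚ`: `a₀ = pⁿ`).

## Frame

* `K` TOTALLY REAL (`hR : ∀ w, w.IsReal`; `ℚ` is the case of interest).  The component of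
  `g ∈ GL₂(𝔸_K)` at `w` is `reGL K w (hR w) g ∈ GL₂(ℝ)`.
* weights `n : InfinitePlace K → ℤ`, `n w ∈ {0, 1, -1}` (`IsWt`); the type is
  `typeR K hR n k = ∏_w T6.wtChar (n w) (k_w)` (`T6.wtChar n (rotation of angle θ) = e^{inθ}`).
* local test functions at a real place: `T6.IsArchTestR n F` (helper22, `T6/SpecArch.lean`,
  VERBATIM: continuous, compact support, smooth, supported in `det > 0`,
  `F(k g) = F(g k) = (wtChar n k)⁻¹ F(g)` for `k ∈ SO(2)`).  These are the functions which the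
  archimedean matching `T6.ArchMatchC` delivers.
* real `N`-integral (Lebesgue measure of `ℝ`), for `c₁, c₂ > 0`:
  `∫ F [[c₁, x], [0, c₂]] dx = √(c₁ c₂) β(log c₁, log c₂)` (`HasAbelNR`; the module of `ℝ` is
  `|·|`, so `√(c₁ c₂)` replaces `|c₁| |c₂|` of the complex place).  For `c₁, c₂ < 0` the
  integral is `(-1)ⁿ` times the value at `(|c₁|, |c₂|)` (`-1 ∈ SO(2)`), for `c₁ c₂ < 0` it is `0`
  (`det < 0`): `sgnR`.  Since `α > 0` at every real place the sign does not depend on `j`.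
* the coordinates, the pure tensors on the coordinate group, `EKCoreC`, `FtPureC`, `FrameM`,
  `OutsideUM`, `IsSuppAtM`, `GoodParamM` are those of `M/Spec.lean` (station T3.18M), used as
  they are; so are the closed leaves N.1 `IwasawaFormC`, N.4 `AffineC`, M.6 `OutsideCosetMC`,
  M.8 `LocValFinMC`, `AS.SatakeLocC`, `EKKillC`, `EKStarC`, `InScalarUnifC`, `InAddHaarC`
  (none of them mentions the infinite places).
* THE ACTION is stated for an ABSTRACT LOCAL CLASS `𝒞 w ⊆ (GL₂(ℝ) → ℂ)` at each real place on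
  which the test functions of weight `n w` act by scalars (`IsScalarClassR`), so that the station
  does not fix the eigen-vocabulary of the consumer; the concrete class of the joint
  eigenfunctions of the circle means (`locClassR n m`, VERBATIM the hypotheses of
  `T6.ArchClassC`) is such a class: leaf R.2.

## The leaves

| leaf | Prop | model (closed) |
|---|---|---|
| R.1 | `AbelRealC` (MATHLIB + `T6/SpecArch` + `ASSpec`) | `AS.AbelCplxSmoothC` (helper893/736/315/984) |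
| R.2 | `MeanActsRC` (MATHLIB + `T6/SpecArch`) | G.1 `M.MeanActsC` (helper96) |
| R.3 | `PureRegRC K` | M.3 `M.PureRegMC` (helper709) + `M.pureSmoothM` |
| R.4 | `ROpRC K` | G.2 `M.ROpMeanMC` (helper474, helper505) |
| R.5 | `PureUpperRC K` | M.5 `M.PureUpperMC` (helper474, helper194) |
| R.6 | `SplitRC K` | M.7 `M.SplitMC` (helper719, helper749) |
| R.7 | `LocValInfRC K` | N.7 `N893.LocValInfC` (helper800) |
| R.8 | `ProdFormRC K` | M.9 `M.ProdFormMC` (helper793) |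
| R.9 | `TypeRC K` | `T5.isKType_triv` |
| R.10 | `LocOfMeanRC K` | `isLocMean_of505` (helper505) |

Nodes (tops in `R/Top*.lean`): `NIntRC`, `AbelSatakeRC`, `EKOpExistRC`, `EKOpExistMeanRC`.
-/

set_option autoImplicit false
set_option linter.style.haveILetI false

open IsDedekindDomain NumberField MeasureTheory
open Fermat.Agent.LT.H556.A0

noncomputable section

namespace Fermat.Agent.LT.T3.R

open Fermat.Agent.LT.T3.AS Fermat.Agent.LT.T3.AS.N893 Fermat.Agent.LT.T3.M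

/-! ## 0. The real place (no number field) -/

/-- The weights of the station. -/
def IsWt (n : ℤ) : Prop := n = 0 ∨ n = 1 ∨ n = -1

/-- The real `N`-integral of `F` is `β` (Lebesgue measure of `ℝ`, positive diagonal). -/
def HasAbelNR (F : GL (Fin 2) ℝ → ℂ) (β : ℝ × ℝ → ℂ) : Prop :=
  ∀ c₁ c₂ : ℝˣ, 0 < (c₁ : ℝ) → 0 < (c₂ : ℝ) →
    ∫ x : ℝ, F (upperGL c₁ c₂ x)
      = ((Real.sqrt ((c₁ : ℝ) * (c₂ : ℝ)) : ℝ) : ℂ) * β (Real.log (c₁ : ℝ), Real.log (c₂ : ℝ))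

open Classical in
/-- The sign factor of the real `N`-integral of a function of weight `n`: `1` on the positive
diagonal, `(-1)ⁿ` on the negative diagonal, `0` if `det < 0`. -/
def sgnR (n : ℤ) (c₁ c₂ : ℝ) : ℂ :=
  if 0 < c₁ ∧ 0 < c₂ then 1 else if c₁ < 0 ∧ c₂ < 0 then (-1 : ℂ) ^ n else 0

/-- **R.1 (real place; Abel inversion on `ℍ²` in the weights `0, ±1`), MATHLIB + the
definitions.**  Every symmetric `β ∈ C_c^∞(ℝ²)` is the `N`-integral of a test function of weight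
`n` on `GL₂(ℝ)`.
Construction.  `D = det g`, `ρ = T6.rhoR g = tr(gᵀ g) / (2 D) ≥ 1`; on `[[c₁, x], [0, c₂]]`:
`D = c₁ c₂`, `ρ = ρ₀ + x² / (2 D)`, `ρ₀ = cosh u`, `u = log (c₁ / c₂)`.  Let
`β((c + u)/2, (c - u)/2) = Q(e^c, cosh u)` (`Q` smooth up to `ρ₀ = 1`: Whitney, as in
`AS.AbelCplxSmoothC`, helper984).
* `n = 0`: `F(g) = H(D, ρ)` for `D > 0`, `0` for `D < 0`, with
  `∫_ℝ H(D, ρ₀ + y²) dy = Q(D, ρ₀) / √2`, i.e. `H(D, ρ) = -(1 / (π √2)) ∫_ℝ ∂_ρ Q(D, ρ + t²) dt`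
  (classical Abel inversion: `∫∫ ∂_ρ Q(D, ρ + y² + t²) dy dt = -π Q(D, ρ)` in polar
  coordinates).
* `n = ±1`: `F(g) = conj(A(g))ⁿ' H₁(D, ρ)` (`A = T6.holPart`, `n' = 1`; for `n = -1` take `A(g)`):
  on the upper triangular matrices `A = ((c₁ + c₂) - i x) / 2`, the odd part integrates to `0`,
  `(c₁ + c₂) / 2 = √D √((1 + ρ₀) / 2)`, so `H₁` is the Abel inverse of
  `Q(D, ρ₀) / √(D (1 + ρ₀))` (memo of helper517 for `T6.ArchMatchC`). -/
def AbelRealC : Prop :=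
  ∀ n : ℤ, IsWt n → ∀ β : ℝ × ℝ → ℂ, IsSymBump β →
    ∃ F : GL (Fin 2) ℝ → ℂ, T6.IsArchTestR n F ∧ HasAbelNR F β

/-- `R(F)` acts on the class `𝒞` by the scalar `C`. -/
def ActsOnR {mr : MeasurableSpace (GL (Fin 2) ℝ)} (μr : Measure (GL (Fin 2) ℝ))
    (F : GL (Fin 2) ℝ → ℂ) (𝒞 : Set (GL (Fin 2) ℝ → ℂ)) (C : ℂ) : Prop :=
  ∀ Ψ ∈ 𝒞, ∀ y : GL (Fin 2) ℝ, ∫ h, Ψ (y * h) * F h ∂μr = C * Ψ y

/-- The test functions of weight `n` act on the class `𝒞` by scalars. -/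
def IsScalarClassR {mr : MeasurableSpace (GL (Fin 2) ℝ)} (μr : Measure (GL (Fin 2) ℝ))
    (n : ℤ) (𝒞 : Set (GL (Fin 2) ℝ → ℂ)) : Prop :=
  ∀ F : GL (Fin 2) ℝ → ℂ, T6.IsArchTestR n F → ∃ C : ℂ, ActsOnR μr F 𝒞 C

/-- On the class `𝒞` the scalar of a test function of weight `n` is `κ_ℝ ∫ β`, `β` its
`N`-integral (the classes of parameter `0`). -/
def HasAbelScalarR {mr : MeasurableSpace (GL (Fin 2) ℝ)} (μr : Measure (GL (Fin 2) ℝ))
    (n : ℤ) (𝒞 : Set (GL (Fin 2) ℝ → ℂ)) (κr : ℂ) : Prop :=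
  ∀ (F : GL (Fin 2) ℝ → ℂ) (β : ℝ × ℝ → ℂ), T6.IsArchTestR n F → HasAbelNR F β →
    ActsOnR μr F 𝒞 (κr * ∫ x : ℝ × ℝ, β x)

/-- THE CONCRETE CLASS: the continuous functions on `GL₂(ℝ)` of weight `n` on the right,
invariant under the positive scalars, which are joint eigenfunctions of the circle means with
eigenvalue function `m` (VERBATIM the hypotheses of `T6.ArchClassC` on `e`, `m`). -/
def locClassR (n : ℤ) (m : ℝ → ℂ) : Set (GL (Fin 2) ℝ → ℂ) :=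
  {e | Continuous e ∧
    (∀ k g : GL (Fin 2) ℝ, T6.InSO2 k → e (g * k) = T6.wtChar n k * e g) ∧
    (∀ (z g : GL (Fin 2) ℝ) (r : ℝ), 0 < r →
      (z : Matrix (Fin 2) (Fin 2) ℝ) = Matrix.diagonal (fun _ => r) → e (g * z) = e g) ∧
    ∀ t : ℝ, 0 < t → ∀ Y : ℝ → GL (Fin 2) ℝ,
      (∀ θ : ℝ, ((Y θ : GL (Fin 2) ℝ) : Matrix (Fin 2) (Fin 2) ℝ)
        = !![Real.cos θ, -Real.sin θ; Real.sin θ, Real.cos θ]
          * !![Real.exp (t / 2), 0; 0, Real.exp (-(t / 2))]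
          * !![Real.cos θ, Real.sin θ; -Real.sin θ, Real.cos θ]) →
      ∀ x : GL (Fin 2) ℝ,
        (∫ θ in (0 : ℝ)..(2 * Real.pi), e (x * Y θ)) = ((2 * Real.pi : ℝ) : ℂ) * m t * e x}

/-- **R.2 (real place; K-average), MATHLIB + the definitions.**  A test function of weight `n`
acts on the joint eigenfunctions of the circle means by a scalar.
Proof (the K-average of helper694 / helper96, `M.MeanActsC`): `∫ Ψ(y h) F(h) dμ
= ∫ A(h) F(h) dμ`, `A(h) = (1/2π) ∫₀^{2π} wtChar n (k_θ)⁻¹ Ψ(y k_θ h) dθ` (left invariance of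
`μ`, `F(k h) = (wtChar n k)⁻¹ F(h)`); on `det h > 0` the Cartan decomposition
`h = z k₁ a_t k₂` gives `A(h) = wtChar n (k₁ k₂) m(t) Ψ(y)` (`t > 0`), `= wtChar n (k₁ k₂) Ψ(y)`
(`t = 0`), a multiple `φ(h) Ψ(y)` with `φ` independent of `Ψ`, `y`.  If every member of the class
vanishes, `C = 0`; otherwise `C = (∫ Ψ₀(y₀ h) F(h) dμ) / Ψ₀(y₀)` (NO measurability of `m`). -/
def MeanActsRC : Prop :=
  letI : MeasurableSpace (GL (Fin 2) ℝ) := borel (GL (Fin 2) ℝ)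
  ∀ μr : Measure (GL (Fin 2) ℝ), μr.IsHaarMeasure →
  ∀ n : ℤ, IsWt n → ∀ m : ℝ → ℂ, IsScalarClassR μr n (locClassR n m)

variable (K : Type) [Field K] [NumberField K]

/-! ## 1. Vocabulary over the number field -/

/-- The component at the real place `w`, in `ℝ`. -/
def reHom (w : InfinitePlace K) (hw : w.IsReal) : Adl K →+* ℝ :=
  (InfinitePlace.Completion.extensionEmbeddingOfIsReal hw).comp
    ((Pi.evalRingHom (fun v : InfinitePlace K => v.Completion) w).comp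
      (RingHom.fst (InfiniteAdeleRing K) (FiniteAdeleRing (𝓞 K) K)))

theorem infHom_eq_reHom (w : InfinitePlace K) (hw : w.IsReal) (X : Adl K) :
    AS.infHom K w X = ((reHom K w hw X : ℝ) : ℂ) :=
  (InfinitePlace.Completion.extensionEmbeddingOfIsReal_apply hw _).symm

/-- The component of `g ∈ GL₂(𝔸_K)` at the real place `w`, in `GL₂(ℝ)`. -/
def reGL (w : InfinitePlace K) (hw : w.IsReal) : G K →* GL (Fin 2) ℝ :=
  Matrix.GeneralLinearGroup.map (reHom K w hw)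

/-- The component of an idele at the real place `w`, in `ℝˣ`. -/
def reU (w : InfinitePlace K) (hw : w.IsReal) : (Adl K)ˣ →* ℝˣ :=
  Units.map (reHom K w hw).toMonoidHom

theorem reU_coe (w : InfinitePlace K) (hw : w.IsReal) (c : (Adl K)ˣ) :
    ((reU K w hw c : ℝˣ) : ℝ) = reHom K w hw (c : Adl K) := rfl

theorem infComp_eq_reGL (w : InfinitePlace K) (hw : w.IsReal) (g : G K) (i j : Fin 2) :
    infComp w g i j = (((reGL K w hw g : GL (Fin 2) ℝ) : Matrix (Fin 2) (Fin 2) ℝ) i j : ℂ) :=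
  infHom_eq_reHom K w hw _

/-- THE `K_∞`-TYPE of weights `n`: `k ↦ ∏_w wtChar (n w) (k_w)`. -/
def typeR (hR : ∀ w : InfinitePlace K, w.IsReal) (n : InfinitePlace K → ℤ) : G K → ℂ :=
  fun k => ∏ w : InfinitePlace K, T6.wtChar (n w) (reGL K w (hR w) k)

/-- `α > 0` at every real place. -/
def IsTotPos (hR : ∀ w : InfinitePlace K, w.IsReal) (α : Kˣ) : Prop :=
  ∀ w : InfinitePlace K, 0 < InfinitePlace.embedding_of_isReal (hR w) (α : K)

open Classical in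
/-- THE PURE TENSOR `⊗_{v ∈ P} f₀_v ⊗ ⊗_w F_w ⊗ 1_{U^{S'}}`, `S' = P ∪ S_∞`, real places. -/
def pureFnR (hR : ∀ w : InfinitePlace K, w.IsReal) (𝔫 : Ideal (𝓞 K))
    (P : Finset (HeightOneSpectrum (𝓞 K)))
    (f₀ : ∀ v : HeightOneSpectrum (𝓞 K), GL (Fin 2) (v.adicCompletion K) → ℂ)
    (F : InfinitePlace K → GL (Fin 2) ℝ → ℂ) (h : G K) : ℂ :=
  if OutsideUM K 𝔫 P h then
    (∏ v ∈ P, f₀ v (finGL K v h)) * ∏ w : InfinitePlace K, F w (reGL K w (hR w) h)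
  else 0

/-- The global class of the local classes `𝒞 w`: `φ` is continuous, right invariant under
`U(𝔫)`, and at every real place `w` the local functions `y ↦ φ(g ŷ)` belong to `𝒞 w`
(`ŷ` = the element supported at `w` with component `y`). -/
structure IsClassLevelR (hR : ∀ w : InfinitePlace K, w.IsReal) (𝔫 : Ideal (𝓞 K))
    (𝒞 : InfinitePlace K → Set (GL (Fin 2) ℝ → ℂ)) (φ : G K → ℂ) : Prop where
  cont : Continuous φ
  level_inv : ∀ u : G K, InLevelGroup 𝔫 u → ∀ g : G K, φ (g * u) = φ g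
  loc : ∀ (w : InfinitePlace K) (Y : GL (Fin 2) ℝ → G K),
    (∀ y : GL (Fin 2) ℝ, IsLocalAtInf w (Y y) ∧ reGL K w (hR w) (Y y) = y) →
    ∀ g : G K, (fun y : GL (Fin 2) ℝ => φ (g * Y y)) ∈ 𝒞 w

/-- `φ` is a joint eigenfunction of the circle means at the real place `w` with eigenvalue
function `m` (the global form of the last clause of `locClassR`). -/
def MeanEigR (hR : ∀ w : InfinitePlace K, w.IsReal) (φ : G K → ℂ) (w : InfinitePlace K)
    (m : ℝ → ℂ) : Prop :=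
  ∀ t : ℝ, 0 < t → ∀ Y : ℝ → G K,
    (∀ θ : ℝ, IsLocalAtInf w (Y θ) ∧
      ((reGL K w (hR w) (Y θ) : GL (Fin 2) ℝ) : Matrix (Fin 2) (Fin 2) ℝ)
        = !![Real.cos θ, -Real.sin θ; Real.sin θ, Real.cos θ]
          * !![Real.exp (t / 2), 0; 0, Real.exp (-(t / 2))]
          * !![Real.cos θ, Real.sin θ; -Real.sin θ, Real.cos θ]) →
    ∀ g : G K,
      (∫ θ in (0 : ℝ)..(2 * Real.pi), φ (g * Y θ)) = ((2 * Real.pi : ℝ) : ℂ) * m t * φ g

/-- `φ` is continuous, right invariant under `U(𝔫)` and under the positive scalars at infinity,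
of type `typeR n` under `K_∞` on the right, and a joint eigenfunction of the circle means with
eigenvalue functions `m_w`. -/
structure IsMeanLevelR (hR : ∀ w : InfinitePlace K, w.IsReal) (𝔫 : Ideal (𝓞 K))
    (n : InfinitePlace K → ℤ) (m : InfinitePlace K → ℝ → ℂ) (φ : G K → ℂ) : Prop where
  cont : Continuous φ
  level_inv : ∀ u : G K, InLevelGroup 𝔫 u → ∀ g : G K, φ (g * u) = φ g
  arch_scalar : ∀ (w : InfinitePlace K) (z : G K), IsArchPosScalar w z →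
    ∀ g : G K, φ (g * z) = φ g
  arch_compact : ∀ (w : InfinitePlace K) (k : G K), IsArchCompact w k →
    ∀ g : G K, φ (g * k) = typeR K hR n k * φ g
  mean : ∀ w : InfinitePlace K, MeanEigR K hR φ w (m w)

/-! ## 2. The global leaves -/

/-- **R.9 (the type is a `K_∞`-type).**  `wtChar n` is a unitary character of `SO(2)`,
continuous; `reGL` is continuous and multiplicative. -/
def TypeRC : Prop :=
  ∀ (hR : ∀ w : InfinitePlace K, w.IsReal) (n : InfinitePlace K → ℤ),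
    T5.IsKType (typeR K hR n)

/-- **R.10 (the local functions of a joint eigenfunction).**  Model: `isLocMean_of505`
(helper505), `H57/ROpLoc.lean` (helper57). -/
def LocOfMeanRC : Prop :=
  ∀ (hR : ∀ w : InfinitePlace K, w.IsReal) (𝔫 : Ideal (𝓞 K)) (n : InfinitePlace K → ℤ)
    (m : InfinitePlace K → ℝ → ℂ) (φ : G K → ℂ),
    IsMeanLevelR K hR 𝔫 n m φ →
      IsClassLevelR K hR 𝔫 (fun w => locClassR (n w) (m w)) φ

/-- **R.3 (regularity of the pure tensor).**  Model: `M.PureRegMC` (helper709) and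
`M.pureSmoothM`. -/
def PureRegRC : Prop :=
  ∀ (hR : ∀ w : InfinitePlace K, w.IsReal) (𝔫 : Ideal (𝓞 K)), 𝔫 ≠ ⊥ →
  ∀ P : Finset (HeightOneSpectrum (𝓞 K)), (∀ v ∈ P, ¬ v.asIdeal ∣ 𝔫) →
  ∀ (n : InfinitePlace K → ℤ)
    (f₀ : ∀ v : HeightOneSpectrum (𝓞 K), GL (Fin 2) (v.adicCompletion K) → ℂ)
    (F : InfinitePlace K → GL (Fin 2) ℝ → ℂ),
    (∀ v ∈ P, IsBiIntInv v (f₀ v)) →
    (∀ v ∈ P, ∃ R : Finset (GL (Fin 2) (v.adicCompletion K)), IsRepSys v (f₀ v) R) →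
    (∀ w, T6.IsArchTestR (n w) (F w)) →
    Continuous (pureFnR K hR 𝔫 P f₀ F) ∧ HasCompactSupport (pureFnR K hR 𝔫 P f₀ F) ∧
      IsSmoothInf K (pureFnR K hR 𝔫 P f₀ F) ∧
      T5.IsBiInvariant 𝔫 (typeR K hR n) (pureFnR K hR 𝔫 P f₀ F) ∧
      IsSuppAtM K 𝔫 P (pureFnR K hR 𝔫 P f₀ F)

/-- **R.4 (the operator of a pure tensor on a class).**  Model: `M.ROpMeanMC` (helper474,
helper505; `AS.ROpC`, helper57): the coset sums at the places of `P`, then the real places one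
after the other (`ActsOnR` for the local functions `y ↦ φ(g ŷ)`, which belong to `𝒞 w`). -/
def ROpRC : Prop :=
  letI : MeasurableSpace (G K) := borel (G K)
  letI : MeasurableSpace (GL (Fin 2) ℝ) := borel (GL (Fin 2) ℝ)
  ∀ hR : ∀ w : InfinitePlace K, w.IsReal,
  ∀ μ : Measure (G K), μ.IsHaarMeasure →
  ∀ μr : Measure (GL (Fin 2) ℝ), μr.IsHaarMeasure →
  ∀ 𝔫 : Ideal (𝓞 K), 𝔫 ≠ ⊥ → ∀ P : Finset (HeightOneSpectrum (𝓞 K)),
    (∀ v ∈ P, ¬ v.asIdeal ∣ 𝔫) →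
    ∃ κ₁ : ℂ, κ₁ ≠ 0 ∧
      ∀ (n : InfinitePlace K → ℤ) (A : HeightOneSpectrum (𝓞 K) → ℤ × ℤ → ℂ)
        (C : InfinitePlace K → ℂ) (𝒞 : InfinitePlace K → Set (GL (Fin 2) ℝ → ℂ))
        (f₀ : ∀ v : HeightOneSpectrum (𝓞 K), GL (Fin 2) (v.adicCompletion K) → ℂ)
        (F : InfinitePlace K → GL (Fin 2) ℝ → ℂ),
        (∀ v ∈ P, IsBiIntInv v (f₀ v)) →
        (∀ v ∈ P, ∃ R : Finset (GL (Fin 2) (v.adicCompletion K)), IsRepSys v (f₀ v) R) →
        (∀ v ∈ P, HasSatakeEigen v (f₀ v) (A v)) →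
        (∀ w, T6.IsArchTestR (n w) (F w)) → (∀ w, ActsOnR μr (F w) (𝒞 w) (C w)) →
        ∀ φ : G K → ℂ, IsClassLevelR K hR 𝔫 𝒞 φ →
        ∀ a b z₁ z₂ : HeightOneSpectrum (𝓞 K) → ℂ,
          (∀ v ∈ P, IsHeckeEigenAt φ v (a v) (b v)) →
          (∀ v ∈ P, z₁ v + z₂ v = a v) → (∀ v ∈ P, z₁ v * z₂ v = b v) → (∀ v ∈ P, b v ≠ 0) →
          ∀ g : G K, Rop K μ (pureFnR K hR 𝔫 P f₀ F) φ g
            = κ₁ * (∏ v ∈ P, laurent (A v) (z₁ v) (z₂ v)) * (∏ w : InfinitePlace K, C w) * φ g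

open Classical in
/-- **R.5 = N.2 real (the pure tensor on `K⁰ B K⁰`).**  Model: `M.PureUpperMC` (helper474).
The components of `k₁, k'` at the real places lie in `SO(2)` (`T1.IsStdCompact`): the type
factor `(typeR k₁)⁻¹ (typeR k')⁻¹`. -/
def PureUpperRC : Prop :=
  ∀ (hR : ∀ w : InfinitePlace K, w.IsReal) (𝔫 : Ideal (𝓞 K))
    (P : Finset (HeightOneSpectrum (𝓞 K))) (n : InfinitePlace K → ℤ)
    (f₀ : ∀ v : HeightOneSpectrum (𝓞 K), GL (Fin 2) (v.adicCompletion K) → ℂ)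
    (F : InfinitePlace K → GL (Fin 2) ℝ → ℂ),
    (∀ v ∈ P, IsBiIntInv v (f₀ v)) → (∀ w, T6.IsArchTestR (n w) (F w)) →
    ∀ (k₁ k' : G K), T1.IsStdCompact K k₁ → T1.IsStdCompact K k' →
    ∀ (c₁ c₂ : (Adl K)ˣ) (X : Adl K),
      pureFnR K hR 𝔫 P f₀ F (k₁ * upperGL c₁ c₂ X * k')
        = (if OutsideUM K 𝔫 P (k₁ * upperGL c₁ c₂ X * k') then (1 : ℂ) else 0)
          * ((typeR K hR n k₁)⁻¹ * (typeR K hR n k')⁻¹)
          * (∏ v ∈ P, f₀ v (upperGL (finU K v c₁) (finU K v c₂) (finHom K v X)))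
          * ∏ w : InfinitePlace K,
              F w (upperGL (reU K w (hR w) c₁) (reU K w (hR w) c₂) (reHom K w (hR w) X))

/-- **R.6 = N.5 real (splitting of the Haar measure at `S' = P ∪ S_∞`).**  Model: `M.SplitMC`
(helper719) with `∏_w ℝ` in place of `∏_w ℂ`. -/
def SplitRC : Prop :=
  letI : MeasurableSpace (Adl K) := borel (Adl K)
  ∀ hR : ∀ w : InfinitePlace K, w.IsReal,
  ∀ ν : Measure (Adl K), ν.IsAddHaarMeasure →
  ∀ 𝔫 : Ideal (𝓞 K), 𝔫 ≠ ⊥ → ∀ P : Finset (HeightOneSpectrum (𝓞 K)),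
    ∃ ν₀ : ∀ v : HeightOneSpectrum (𝓞 K),
        @Measure (v.adicCompletion K) (borel (v.adicCompletion K)),
      (∀ v : HeightOneSpectrum (𝓞 K),
        @Measure.IsAddHaarMeasure (v.adicCompletion K) _ _ (borel (v.adicCompletion K))
          (ν₀ v)) ∧
      ∃ c₀ : ℂ,
      ∀ (φ₀ : ∀ v : HeightOneSpectrum (𝓞 K), v.adicCompletion K → ℂ)
        (φ : InfinitePlace K → ℝ → ℂ),
        (∀ v ∈ P, Continuous (φ₀ v)) → (∀ v ∈ P, HasCompactSupport (φ₀ v)) →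
        (∀ w, Continuous (φ w)) → (∀ w, HasCompactSupport (φ w)) →
        Integrable (fun X : Adl K => (outGrpM K 𝔫 P).indicator (fun _ => (1 : ℂ)) X
          * (∏ v ∈ P, φ₀ v (finHom K v X))
          * ∏ w : InfinitePlace K, φ w (reHom K w (hR w) X)) ν ∧
        ∫ X, (outGrpM K 𝔫 P).indicator (fun _ => (1 : ℂ)) X
            * (∏ v ∈ P, φ₀ v (finHom K v X))
            * ∏ w : InfinitePlace K, φ w (reHom K w (hR w) X) ∂ν
          = c₀ * (∏ v ∈ P, ∫ x, φ₀ v x ∂(ν₀ v)) * ∏ w : InfinitePlace K, ∫ z : ℝ, φ w z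

/-- **R.7 = N.7 real (the local `N`-integral at a real place).**  Model: `N893.LocValInfC`
(helper800).  `HasAbelNR` at `(|c₁| αʲ, |c₂|)`; the sign by `F(-g) = (-1)ⁿ F(g)` and
`F = 0` on `det < 0`; `α > 0` at `w`, `|α|_w = w α`; translation by `t`. -/
def LocValInfRC : Prop :=
  ∀ (hR : ∀ w : InfinitePlace K, w.IsReal) (α : Kˣ), IsTotPos K hR α →
  ∀ (w : InfinitePlace K) (n : ℤ) (F : GL (Fin 2) ℝ → ℂ) (β : ℝ × ℝ → ℂ),
    T6.IsArchTestR n F → HasAbelNR F β →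
    ∀ (c₁ c₂ : (Adl K)ˣ) (j : ℤ) (t : ℝ),
      Continuous (fun x : ℝ =>
        F (upperGL (reU K w (hR w) (c₁ * T1.ratUnit K α ^ j)) (reU K w (hR w) c₂) (x + t))) ∧
      HasCompactSupport (fun x : ℝ =>
        F (upperGL (reU K w (hR w) (c₁ * T1.ratUnit K α ^ j)) (reU K w (hR w) c₂) (x + t))) ∧
      ∫ x : ℝ,
          F (upperGL (reU K w (hR w) (c₁ * T1.ratUnit K α ^ j)) (reU K w (hR w) c₂) (x + t))
        = sgnR n ((reU K w (hR w) c₁ : ℝˣ) : ℝ) ((reU K w (hR w) c₂ : ℝˣ) : ℝ)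
          * ((Real.sqrt (|((reU K w (hR w) c₁ : ℝˣ) : ℝ)| * |((reU K w (hR w) c₂ : ℝˣ) : ℝ)|)
              * Real.sqrt (w (α : K)) ^ j : ℝ) : ℂ)
          * β (Real.log |((reU K w (hR w) c₁ : ℝˣ) : ℝ)| + j * Real.log (w (α : K)),
              Real.log |((reU K w (hR w) c₂ : ℝˣ) : ℝ)|)

/-- **R.8 = N.8 real (product formula).**  `∏_w w α = |N_{K/ℚ} α| = ∏_{v ∈ P} N(𝔭_v)^{e_v}` for a
totally real field.  Model: `M.ProdFormMC` (helper793). -/
def ProdFormRC : Prop :=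
  (∀ w : InfinitePlace K, w.IsReal) →
  ∀ (𝔫 : Ideal (𝓞 K)) (P : Finset (HeightOneSpectrum (𝓞 K)))
    (e : HeightOneSpectrum (𝓞 K) → ℕ) (a₀ : 𝓞 K) (α : Kˣ), FrameM K 𝔫 P e a₀ α →
    (∏ v ∈ P, (Ideal.absNorm v.asIdeal : ℝ) ^ (-(e v : ℝ) / 2))
      * ∏ w : InfinitePlace K, Real.sqrt (w (α : K)) = 1

/-! ## 3. The nodes -/

/-- **The `N`-integral of a pure tensor, real places** (NODE; top `nIntR_of`).  As `M.NIntMC`;
`κ` depends on the weights (type factors and signs). -/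
def NIntRC : Prop :=
  letI : MeasurableSpace (Adl K) := borel (Adl K)
  ∀ hR : ∀ w : InfinitePlace K, w.IsReal,
  ∀ ν : Measure (Adl K), ν.IsAddHaarMeasure →
  ∀ (𝔫 : Ideal (𝓞 K)) (P : Finset (HeightOneSpectrum (𝓞 K)))
    (e : HeightOneSpectrum (𝓞 K) → ℕ) (a₀ : 𝓞 K) (α : Kˣ), FrameM K 𝔫 P e a₀ α →
    IsTotPos K hR α → ∀ n : InfinitePlace K → ℤ,
    ∃ (κ : G K → G K → ℂ) (Δ : G K → G K → CoordM K P),
      ∀ (A : HeightOneSpectrum (𝓞 K) → ℤ × ℤ → ℂ) (β : InfinitePlace K → ℝ × ℝ → ℂ)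
        (f₀ : ∀ v : HeightOneSpectrum (𝓞 K), GL (Fin 2) (v.adicCompletion K) → ℂ)
        (F : InfinitePlace K → GL (Fin 2) ℝ → ℂ),
        (∀ v ∈ P, IsBiIntInv v (f₀ v)) →
        (∀ v ∈ P, ∃ R : Finset (GL (Fin 2) (v.adicCompletion K)), IsRepSys v (f₀ v) R) →
        (∀ v ∈ P, HasSatakeN v (f₀ v) (A v)) →
        (∀ w, T6.IsArchTestR (n w) (F w)) → (∀ w, HasAbelNR (F w) (β w)) →
        ∀ (g g' : G K) (j : ℤ),
          Integrable (fun x => pureFnR K hR 𝔫 P f₀ F (g⁻¹ * unip K x * torK K α ^ j * g')) ν ∧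
          ∫ x, pureFnR K hR 𝔫 P f₀ F (g⁻¹ * unip K x * torK K α ^ j * g') ∂ν
            = κ g g' * pureCoordM K P A β (Δ g g' + j • coordTorM K P e α)

/-- A PURE PAIR: a symmetric pure tensor on the coordinate group and a pure tensor on
`GL₂(𝔸_K)` with local Satake pairs at `P` and local Abel pairs of weights `n` at infinity. -/
def IsPurePairR (hR : ∀ w : InfinitePlace K, w.IsReal) (𝔫 : Ideal (𝓞 K))
    (P : Finset (HeightOneSpectrum (𝓞 K))) (n : InfinitePlace K → ℤ)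
    (p : (CoordM K P → ℂ) × (G K → ℂ)) : Prop :=
  ∃ (A : HeightOneSpectrum (𝓞 K) → ℤ × ℤ → ℂ) (β : InfinitePlace K → ℝ × ℝ → ℂ)
    (f₀ : ∀ v : HeightOneSpectrum (𝓞 K), GL (Fin 2) (v.adicCompletion K) → ℂ)
    (F : InfinitePlace K → GL (Fin 2) ℝ → ℂ),
    (∀ v, IsSymFin (A v)) ∧ (∀ w, IsSymBump (β w)) ∧
    (∀ v ∈ P, IsSatakePair v (f₀ v) (A v)) ∧
    (∀ w, T6.IsArchTestR (n w) (F w)) ∧ (∀ w, HasAbelNR (F w) (β w)) ∧
    p = (pureCoordM K P A β, pureFnR K hR 𝔫 P f₀ F)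

/-- The span of the pure pairs. -/
def pairSpanR (hR : ∀ w : InfinitePlace K, w.IsReal) (𝔫 : Ideal (𝓞 K))
    (P : Finset (HeightOneSpectrum (𝓞 K))) (n : InfinitePlace K → ℤ) :
    Submodule ℂ ((CoordM K P → ℂ) × (G K → ℂ)) :=
  Submodule.span ℂ {p | IsPurePairR K hR 𝔫 P n p}

/-- **The Abel--Satake pair, real places, weights `n`** (NODE; top `abelSatakeR_of`).  For every
`Φ` in the span of the symmetric pure tensors there is a test function `f` of type `typeR n`,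
with `(Φ, f)` in the span of the pure pairs, with `N`-integral `κ Φ(Δ + j c₀)`, acting by a
scalar `c(z₁, z₂)` on the global class of every family of local classes on which the test
functions act by scalars; `c = κ₀ (∏_w κr w) Φ^(z₁, z₂)` if the local scalars are `κr w ∫ β`. -/
def AbelSatakeRC : Prop :=
  letI : MeasurableSpace (Adl K) := borel (Adl K)
  letI : MeasurableSpace (G K) := borel (G K)
  letI : MeasurableSpace (GL (Fin 2) ℝ) := borel (GL (Fin 2) ℝ)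
  ∀ hR : ∀ w : InfinitePlace K, w.IsReal,
  ∀ μ : Measure (G K), μ.IsHaarMeasure →
  ∀ μr : Measure (GL (Fin 2) ℝ), μr.IsHaarMeasure →
  ∀ ν : Measure (Adl K), ν.IsAddHaarMeasure →
  ∀ (𝔫 : Ideal (𝓞 K)) (P : Finset (HeightOneSpectrum (𝓞 K)))
    (e : HeightOneSpectrum (𝓞 K) → ℕ) (a₀ : 𝓞 K) (α : Kˣ), FrameM K 𝔫 P e a₀ α →
    IsTotPos K hR α → ∀ n : InfinitePlace K → ℤ, (∀ w, IsWt (n w)) →
    ∃ (κ : G K → G K → ℂ) (Δ : G K → G K → CoordM K P) (κ₀ : ℂ), κ₀ ≠ 0 ∧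
      ∀ Φ : CoordM K P → ℂ, Φ ∈ SymSpanM K P →
        ∃ f : G K → ℂ, Continuous f ∧ HasCompactSupport f ∧ IsSmoothInf K f ∧
          T5.IsBiInvariant 𝔫 (typeR K hR n) f ∧ IsSuppAtM K 𝔫 P f ∧
          (Φ, f) ∈ pairSpanR K hR 𝔫 P n ∧
          (∀ (g g' : G K) (j : ℤ),
            ∫ x, f (g⁻¹ * unip K x * torK K α ^ j * g') ∂ν
              = κ g g' * Φ (Δ g g' + j • coordTorM K P e α)) ∧
          ∀ (𝒞 : InfinitePlace K → Set (GL (Fin 2) ℝ → ℂ)) (κr : InfinitePlace K → ℂ),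
            (∀ w, IsScalarClassR μr (n w) (𝒞 w)) →
            ∃ c : (HeightOneSpectrum (𝓞 K) → ℂ) → (HeightOneSpectrum (𝓞 K) → ℂ) → ℂ,
              ((∀ w, HasAbelScalarR μr (n w) (𝒞 w) (κr w)) →
                ∀ z₁ z₂ : HeightOneSpectrum (𝓞 K) → ℂ,
                  c z₁ z₂ = κ₀ * (∏ w, κr w) * ftCoordM K P Φ z₁ z₂) ∧
              ∀ φ : G K → ℂ, IsClassLevelR K hR 𝔫 𝒞 φ →
              ∀ a b z₁ z₂ : HeightOneSpectrum (𝓞 K) → ℂ,
                (∀ v ∈ P, IsHeckeEigenAt φ v (a v) (b v)) →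
                (∀ v ∈ P, z₁ v + z₂ v = a v) → (∀ v ∈ P, z₁ v * z₂ v = b v) →
                (∀ v ∈ P, b v ≠ 0) →
                ∀ g : G K, Rop K μ f φ g = c z₁ z₂ * φ g

/-- **THE OUTPUT of station T3.18R** (in the vocabulary of T5; top `ekOpExistR_of`).
`K` totally real, `(𝔫, P, e, a₀)` as in `T7.GoodEKM`, `a₀ > 0` at every real place, weights
`n w ∈ {0, ±1}`: there is a test function `f` of level `𝔫` and type `typeR n`, supported at
`P ∪ S_∞`, Eisenstein-killing with Eisenstein-killing adjoint, which acts by a scalar `c(a, b)`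
on the global class of every family of local classes on which the test functions act by
scalars; `c(a, b) ≠ 0` under `GoodParamM` if the local scalars are `κr w ∫ β`, `κr w ≠ 0`. -/
def EKOpExistRC : Prop :=
  letI : MeasurableSpace (G K) := borel (G K)
  letI : MeasurableSpace (GL (Fin 2) ℝ) := borel (GL (Fin 2) ℝ)
  ∀ hR : ∀ w : InfinitePlace K, w.IsReal,
  ∀ μ : Measure (G K), μ.IsHaarMeasure →
  ∀ μr : Measure (GL (Fin 2) ℝ), μr.IsHaarMeasure →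
  ∀ (𝔫 : Ideal (𝓞 K)) (P : Finset (HeightOneSpectrum (𝓞 K)))
    (e : HeightOneSpectrum (𝓞 K) → ℕ) (a₀ : 𝓞 K),
    𝔫 ≠ ⊥ → P.Nonempty → (∀ v ∈ P, ¬ v.asIdeal ∣ 𝔫 ∧ 0 < e v) →
    Ideal.span {a₀} = ∏ v ∈ P, v.asIdeal ^ e v → a₀ - 1 ∈ 𝔫 →
    (∀ w : InfinitePlace K,
      0 < InfinitePlace.embedding_of_isReal (hR w) (algebraMap (𝓞 K) K a₀)) →
    ∀ n : InfinitePlace K → ℤ, (∀ w, IsWt (n w)) →
    ∃ f : G K → ℂ, T5.IsTestFn 𝔫 (typeR K hR n) f ∧ T5.IsEK μ f ∧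
      T5.IsEK μ (T5.adjointFn f) ∧ IsSuppAtM K 𝔫 P f ∧
      ∀ (𝒞 : InfinitePlace K → Set (GL (Fin 2) ℝ → ℂ)) (κr : InfinitePlace K → ℂ),
        (∀ w, IsScalarClassR μr (n w) (𝒞 w)) →
        ∃ c : (HeightOneSpectrum (𝓞 K) → ℂ) → (HeightOneSpectrum (𝓞 K) → ℂ) → ℂ,
          ((∀ w, HasAbelScalarR μr (n w) (𝒞 w) (κr w)) → (∀ w, κr w ≠ 0) →
            ∀ a b : HeightOneSpectrum (𝓞 K) → ℂ, GoodParamM K P e a b → c a b ≠ 0) ∧
          ∀ φ : G K → ℂ, IsClassLevelR K hR 𝔫 𝒞 φ →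
          ∀ a b : HeightOneSpectrum (𝓞 K) → ℂ,
            (∀ v ∈ P, IsHeckeEigenAt φ v (a v) (b v)) →
            ∀ g : G K, T5.Rconv μ f φ g = c a b * φ g

/-- **THE OUTPUT for the joint eigenfunctions of the circle means** (top `ekOpExistMeanR_of`):
`R(f) φ = c(a, b, m) φ` for every `φ` with `IsMeanLevelR K hR 𝔫 n m φ`, Hecke-eigen on `P`. -/
def EKOpExistMeanRC : Prop :=
  letI : MeasurableSpace (G K) := borel (G K)
  ∀ hR : ∀ w : InfinitePlace K, w.IsReal,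
  ∀ μ : Measure (G K), μ.IsHaarMeasure →
  ∀ (𝔫 : Ideal (𝓞 K)) (P : Finset (HeightOneSpectrum (𝓞 K)))
    (e : HeightOneSpectrum (𝓞 K) → ℕ) (a₀ : 𝓞 K),
    𝔫 ≠ ⊥ → P.Nonempty → (∀ v ∈ P, ¬ v.asIdeal ∣ 𝔫 ∧ 0 < e v) →
    Ideal.span {a₀} = ∏ v ∈ P, v.asIdeal ^ e v → a₀ - 1 ∈ 𝔫 →
    (∀ w : InfinitePlace K,
      0 < InfinitePlace.embedding_of_isReal (hR w) (algebraMap (𝓞 K) K a₀)) →
    ∀ n : InfinitePlace K → ℤ, (∀ w, IsWt (n w)) →
    ∃ f : G K → ℂ, T5.IsTestFn 𝔫 (typeR K hR n) f ∧ T5.IsEK μ f ∧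
      T5.IsEK μ (T5.adjointFn f) ∧ IsSuppAtM K 𝔫 P f ∧
      ∃ c : (HeightOneSpectrum (𝓞 K) → ℂ) → (HeightOneSpectrum (𝓞 K) → ℂ) →
          (InfinitePlace K → ℝ → ℂ) → ℂ,
        ∀ (φ : G K → ℂ) (m : InfinitePlace K → ℝ → ℂ), IsMeanLevelR K hR 𝔫 n m φ →
        ∀ a b : HeightOneSpectrum (𝓞 K) → ℂ,
          (∀ v ∈ P, IsHeckeEigenAt φ v (a v) (b v)) →
          ∀ g : G K, T5.Rconv μ f φ g = c a b m * φ g

end Fermat.Agent.LT.T3.R

end
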