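import Fermat.Agent.LT.T3.R.ClosedRU

/-!
# Row LT, tower T3, station T3.18R (architect helper14): THE EXPLICIT FORM
# (local factors visible; hint of helper797, note 18148 (4))

OFF-MAIN.  Complete proofs, nothing assumed.  ADDITIVE (new names only).

The outputs `EKOpExistRC`, `AbelSatakeRC` are EXISTENCE statements: the local factors of the test
function are chosen by the station.  For the matched pairs of tower T7 (`ConstrQ60C732`, the
`ℚ`-step) the consumer CHOOSES the local factors (`f₀ v` at `v ∈ P`: the `T6`-match of the factor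
upstairs; `F w` at the real place: `abelF0_626` / `abelF1_626`), so the statements are needed for
GIVEN local factors:

* pure tensors: the closed leaves are already stated for given local factors with the local pair
  relations: `nIntR_c` (`N`-integral), `rOpR_c` (operator), `H709.pureRegRC709` (regularity);
* **`ExplicitRC K`, `explicitR_c`**: there are `κ, Δ, κ₀ ≠ 0`, which depend on the frame and the
  weights only, such that EVERY `(Φ, f)` in `pairSpanR` (= finite linear combinations of pure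
  pairs `(pureCoordM A β, pureFnR f₀ F)` with `IsSatakePair v (f₀ v) (A v)`, `v ∈ P`,
  `T6.IsArchTestR (n w) (F w)`, `HasAbelNR (F w) (β w)`) is an Abel--Satake pair `IsASPairR`
  (regularity, type, support, `N`-integral `κ Φ(Δ + j c₀)`, operator on every class);
* **`EKOfPairRC K`, `ekOfPairR_c`**: if moreover `Φ` telescopes along `c₀ = coordTorM K P e α`
  (`∑_j Φ(Δ + j c₀) = 0`), then `f` is a test function of type `typeR n` in the sense of T5,
  Eisenstein-killing with Eisenstein-killing adjoint, supported at `P ∪ S_∞`, with the operator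
  scalars `c(z₁, z₂)` (`= κ₀ (∏_w κr w) Φ^(z₁, z₂)` if the local scalars are `κr w ∫ β`);
* `isPurePairR_mk`, `mem_pairSpanR_pure`, `mem_pairSpanR_sum`: how to produce members of
  `pairSpanR` from explicit local factors.

No weight hypothesis `IsWt` is needed here (`AbelRealC` is not used: the local functions are given).
-/

set_option autoImplicit false
set_option linter.style.haveILetI false

open IsDedekindDomain NumberField MeasureTheory
open Fermat.Agent.LT.H556.A0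

noncomputable section

namespace Fermat.Agent.LT.T3.R

open Fermat.Agent.LT.T3.AS Fermat.Agent.LT.T3.M

variable (K : Type) [Field K] [NumberField K]

/-! ## 0. Members of `pairSpanR` from explicit local factors -/

variable {K}

/-- A pure pair from explicit local factors. -/
theorem isPurePairR_mk (hR : ∀ w : InfinitePlace K, w.IsReal) (𝔫 : Ideal (𝓞 K))
    (P : Finset (HeightOneSpectrum (𝓞 K))) (n : InfinitePlace K → ℤ)
    (A : HeightOneSpectrum (𝓞 K) → ℤ × ℤ → ℂ) (β : InfinitePlace K → ℝ × ℝ → ℂ)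
    (f₀ : ∀ v : HeightOneSpectrum (𝓞 K), GL (Fin 2) (v.adicCompletion K) → ℂ)
    (F : InfinitePlace K → GL (Fin 2) ℝ → ℂ)
    (hA : ∀ v, IsSymFin (A v)) (hβ : ∀ w, IsSymBump (β w))
    (hp : ∀ v ∈ P, IsSatakePair v (f₀ v) (A v))
    (hF : ∀ w, T6.IsArchTestR (n w) (F w)) (hN : ∀ w, HasAbelNR (F w) (β w)) :
    IsPurePairR K hR 𝔫 P n (pureCoordM K P A β, pureFnR K hR 𝔫 P f₀ F) :=
  ⟨A, β, f₀, F, hA, hβ, hp, hF, hN, rfl⟩

/-- A pure pair from explicit local factors belongs to `pairSpanR`. -/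
theorem mem_pairSpanR_pure (hR : ∀ w : InfinitePlace K, w.IsReal) (𝔫 : Ideal (𝓞 K))
    (P : Finset (HeightOneSpectrum (𝓞 K))) (n : InfinitePlace K → ℤ)
    (A : HeightOneSpectrum (𝓞 K) → ℤ × ℤ → ℂ) (β : InfinitePlace K → ℝ × ℝ → ℂ)
    (f₀ : ∀ v : HeightOneSpectrum (𝓞 K), GL (Fin 2) (v.adicCompletion K) → ℂ)
    (F : InfinitePlace K → GL (Fin 2) ℝ → ℂ)
    (hA : ∀ v, IsSymFin (A v)) (hβ : ∀ w, IsSymBump (β w))
    (hp : ∀ v ∈ P, IsSatakePair v (f₀ v) (A v))
    (hF : ∀ w, T6.IsArchTestR (n w) (F w)) (hN : ∀ w, HasAbelNR (F w) (β w)) :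
    (pureCoordM K P A β, pureFnR K hR 𝔫 P f₀ F) ∈ pairSpanR K hR 𝔫 P n :=
  Submodule.subset_span (isPurePairR_mk hR 𝔫 P n A β f₀ F hA hβ hp hF hN)

/-- A finite linear combination of pure pairs with explicit local factors belongs to
`pairSpanR`: `(∑_i c_i Φ_i, ∑_i c_i f_i)`. -/
theorem mem_pairSpanR_sum (hR : ∀ w : InfinitePlace K, w.IsReal) (𝔫 : Ideal (𝓞 K))
    (P : Finset (HeightOneSpectrum (𝓞 K))) (n : InfinitePlace K → ℤ)
    {ι : Type} (s : Finset ι) (c : ι → ℂ)
    (A : ι → HeightOneSpectrum (𝓞 K) → ℤ × ℤ → ℂ) (β : ι → InfinitePlace K → ℝ × ℝ → ℂ)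
    (f₀ : ι → ∀ v : HeightOneSpectrum (𝓞 K), GL (Fin 2) (v.adicCompletion K) → ℂ)
    (F : ι → InfinitePlace K → GL (Fin 2) ℝ → ℂ)
    (hA : ∀ i ∈ s, ∀ v, IsSymFin (A i v)) (hβ : ∀ i ∈ s, ∀ w, IsSymBump (β i w))
    (hp : ∀ i ∈ s, ∀ v ∈ P, IsSatakePair v (f₀ i v) (A i v))
    (hF : ∀ i ∈ s, ∀ w, T6.IsArchTestR (n w) (F i w))
    (hN : ∀ i ∈ s, ∀ w, HasAbelNR (F i w) (β i w)) :
    (∑ i ∈ s, c i • pureCoordM K P (A i) (β i), ∑ i ∈ s, c i • pureFnR K hR 𝔫 P (f₀ i) (F i))
      ∈ pairSpanR K hR 𝔫 P n := by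
  have h : (∑ i ∈ s, c i • pureCoordM K P (A i) (β i),
      ∑ i ∈ s, c i • pureFnR K hR 𝔫 P (f₀ i) (F i))
      = ∑ i ∈ s, c i • ((pureCoordM K P (A i) (β i), pureFnR K hR 𝔫 P (f₀ i) (F i)) :
          (CoordM K P → ℂ) × (G K → ℂ)) := by
    refine Prod.ext ?_ ?_
    · rw [Prod.fst_sum]
      rfl
    · rw [Prod.snd_sum]
      rfl
  rw [h]
  refine Submodule.sum_mem _ fun i hi => Submodule.smul_mem _ _ ?_
  exact mem_pairSpanR_pure hR 𝔫 P n (A i) (β i) (f₀ i) (F i) (hA i hi) (hβ i hi) (hp i hi)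
    (hF i hi) (hN i hi)

variable (K)

/-! ## 1. Every member of `pairSpanR` is an Abel--Satake pair -/

/-- **THE EXPLICIT FORM of the Abel--Satake pair at real places.**  `κ, Δ, κ₀` depend on the
frame and the weights only; every member of `pairSpanR` is an Abel--Satake pair. -/
def ExplicitRC : Prop :=
  letI : MeasurableSpace (Adl K) := borel (Adl K)
  letI : MeasurableSpace (G K) := borel (G K)
  letI : MeasurableSpace (GL (Fin 2) ℝ) := borel (GL (Fin 2) ℝ)
  ∀ hR : ∀ w : InfinitePlace K, w.IsReal,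
  ∀ μ : Measure (G K), μ.IsHaarMeasure →
  ∀ μr : Measure (GL (Fin 2) ℝ), μr.IsHaarMeasure →
  ∀ ν : Measure (Adl K), ν.IsAddHaarMeasure →
  ∀ (𝔫 : Ideal (𝓞 K)) (P : Finset (HeightOneSpectrum (𝓞 K)))
    (e : HeightOneSpectrum (𝓞 K) → ℕ) (a₀ : 𝓞 K) (α : Kˣ), FrameM K 𝔫 P e a₀ α →
    IsTotPos K hR α → ∀ n : InfinitePlace K → ℤ,
    ∃ (κ : G K → G K → ℂ) (Δ : G K → G K → CoordM K P) (κ₀ : ℂ), κ₀ ≠ 0 ∧
      ∀ p : (CoordM K P → ℂ) × (G K → ℂ), p ∈ pairSpanR K hR 𝔫 P n →
        IsASPairR K hR μ μr ν 𝔫 P e α n κ Δ κ₀ p.1 p.2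

/-- The explicit form from the leaves R.3, R.4, the node `NIntRC` and M.2. -/
theorem explicitR_of (hft : FtPureC) (h3 : PureRegRC K) (h4 : NIntRC K) (h5 : ROpRC K) :
    ExplicitRC K := by
  let _ : MeasurableSpace (Adl K) := borel (Adl K)
  let _ : MeasurableSpace (G K) := borel (G K)
  let _ : MeasurableSpace (GL (Fin 2) ℝ) := borel (GL (Fin 2) ℝ)
  have _ : BorelSpace (G K) := ⟨rfl⟩
  intro hR μ hμ μr hμr ν hν 𝔫 P e a₀ α hfr hpos n
  obtain ⟨κ, Δ, hN⟩ := h4 hR ν hν 𝔫 P e a₀ α hfr hpos n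
  obtain ⟨κ₁, hκ₁, hRop⟩ := h5 hR μ hμ μr hμr 𝔫 hfr.level P hfr.prime
  refine ⟨κ, Δ, κ₁, hκ₁, ?_⟩
  intro p hp
  induction hp using Submodule.span_induction with
  | zero => exact IsASPairR.zero
  | add p₁ p₂ _ _ ih₁ ih₂ => exact ih₁.add ih₂
  | smul c p _ ih => exact ih.smul c
  | mem p hp =>
    classical
    obtain ⟨A, β, f₀, F, hAsym, hβ, hpair, hF1, hF2, rfl⟩ := hp
    obtain ⟨r1, r2, r3, r4, r5⟩ := h3 hR 𝔫 hfr.level P hfr.prime n f₀ F
      (fun v hv => (hpair v hv).bi_inv) (fun v hv => (hpair v hv).fin_supp) hF1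
    have hNN := hN A β f₀ F (fun v hv => (hpair v hv).bi_inv)
      (fun v hv => (hpair v hv).fin_supp) (fun v hv => (hpair v hv).n_int) hF1 hF2
    have hft' : ∀ z₁ z₂ : HeightOneSpectrum (𝓞 K) → ℂ,
        ftCoordM K P (pureCoordM K P A β) z₁ z₂
          = (∏ v ∈ P, laurent (A v) (z₁ v) (z₂ v)) * ∏ w : InfinitePlace K, ∫ x : ℝ × ℝ, β w x := by
      intro z₁ z₂
      unfold ftCoordM pureCoordM
      rw [hft P (InfinitePlace K) (fun v : P => A v) β (fun i => (hAsym i).1)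
        (fun v : P => z₁ v) (fun v : P => z₂ v),
        Finset.prod_coe_sort P (fun v => laurent (A v) (z₁ v) (z₂ v))]
    refine
      { fin_m := ⟨Fintype.piFinset fun i : P => (hAsym i).1.toFinset, fun m hm x => ?_⟩
        int_x := fun m => ?_
        cont := r1
        supp := r2
        smooth := r3
        bi := r4
        supp_at := r5
        pair := Submodule.subset_span
          ⟨A, β, f₀, F, hAsym, hβ, hpair, hF1, hF2, rfl⟩
        n_integrable := fun g g' j => (hNN g g' j).1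
        n_int := fun g g' j => (hNN g g' j).2
        gen := fun 𝒞 κr h𝒞 => ?_ }
    · rw [Fintype.mem_piFinset, not_forall] at hm
      obtain ⟨i, hi⟩ := hm
      rw [Set.Finite.mem_toFinset, Function.mem_support, not_not] at hi
      have : ∏ v : P, A v (m v) = 0 := Finset.prod_eq_zero (Finset.mem_univ i) hi
      show (∏ v : P, A v (m v)) * ∏ w : InfinitePlace K, β w (x w) = 0
      rw [this, zero_mul]
    · have : (fun x : InfinitePlace K → ℝ × ℝ => pureCoordM K P A β (m, x))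
          = fun x => (∏ v : P, A v (m v)) * ∏ w : InfinitePlace K, β w (x w) := rfl
      show Integrable (fun x : InfinitePlace K → ℝ × ℝ => pureCoordM K P A β (m, x))
      rw [this]
      refine Integrable.const_mul ?_ _
      exact Integrable.fintype_prod (f := β) (μ := fun _ => volume) fun w =>
        (hβ w).1.continuous.integrable_of_hasCompactSupport (hβ w).2.1
    · -- the scalars at the real places
      choose Cg hCg using fun w : InfinitePlace K => h𝒞 w (F w) (hF1 w)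
      set Cw : InfinitePlace K → ℂ := fun w =>
        if HasAbelScalarR μr (n w) (𝒞 w) (κr w) then κr w * ∫ x : ℝ × ℝ, β w x else Cg w
        with hCw
      have hCwa : ∀ w : InfinitePlace K, ActsOnR μr (F w) (𝒞 w) (Cw w) := by
        intro w
        by_cases hm : HasAbelScalarR μr (n w) (𝒞 w) (κr w)
        · simp only [hCw, if_pos hm]
          exact hm (F w) (β w) (hF1 w) (hF2 w)
        · simp only [hCw, if_neg hm]
          exact hCg w
      refine ⟨fun z₁ z₂ => κ₁ * (∏ v ∈ P, laurent (A v) (z₁ v) (z₂ v))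
          * ∏ w : InfinitePlace K, Cw w, fun hκ z₁ z₂ => ?_,
        fun φ hφ a b z₁ z₂ he hz₁ hz₂ hb g => ?_⟩
      · have e1 : ∀ w : InfinitePlace K, Cw w = κr w * ∫ x : ℝ × ℝ, β w x := fun w => by
          simp only [hCw, if_pos (hκ w)]
        show κ₁ * (∏ v ∈ P, laurent (A v) (z₁ v) (z₂ v)) * ∏ w : InfinitePlace K, Cw w = _
        simp only [e1]
        rw [hft' z₁ z₂, Finset.prod_mul_distrib]
        ring
      · exact hRop n A Cw 𝒞 f₀ F (fun v hv => (hpair v hv).bi_inv)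
          (fun v hv => (hpair v hv).fin_supp) (fun v hv => (hpair v hv).eigen) hF1 hCwa φ hφ
          a b z₁ z₂ he hz₁ hz₂ hb g

/-- **THE EXPLICIT FORM, UNCONDITIONAL.** -/
theorem explicitR_c : ExplicitRC K :=
  explicitR_of K (openM_c K).ftPure (H709.pureRegRC709 K) (nIntR_c K) (rOpR_c K)

/-! ## 2. Eisenstein killing for a telescoping member of `pairSpanR` -/

/-- **EK FOR GIVEN LOCAL FACTORS.**  If `(Φ, f) ∈ pairSpanR` and `Φ` telescopes along
`c₀ = coordTorM K P e α`, then `f` is a T5 test function of type `typeR n`, Eisenstein-killing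
with Eisenstein-killing adjoint, supported at `P ∪ S_∞`, and acts by the scalars `c(z₁, z₂)` on
the global class of every family of local classes on which the test functions act by scalars. -/
def EKOfPairRC : Prop :=
  letI : MeasurableSpace (G K) := borel (G K)
  letI : MeasurableSpace (GL (Fin 2) ℝ) := borel (GL (Fin 2) ℝ)
  ∀ hR : ∀ w : InfinitePlace K, w.IsReal,
  ∀ μ : Measure (G K), μ.IsHaarMeasure →
  ∀ μr : Measure (GL (Fin 2) ℝ), μr.IsHaarMeasure →
  ∀ (𝔫 : Ideal (𝓞 K)) (P : Finset (HeightOneSpectrum (𝓞 K)))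
    (e : HeightOneSpectrum (𝓞 K) → ℕ) (a₀ : 𝓞 K) (α : Kˣ), FrameM K 𝔫 P e a₀ α →
    IsTotPos K hR α → ∀ n : InfinitePlace K → ℤ,
    ∃ κ₀ : ℂ, κ₀ ≠ 0 ∧
      ∀ (Φ : CoordM K P → ℂ) (f : G K → ℂ), (Φ, f) ∈ pairSpanR K hR 𝔫 P n →
        (∀ Δ : CoordM K P, HasSum (fun j : ℤ => Φ (Δ + j • coordTorM K P e α)) 0) →
        T5.IsTestFn 𝔫 (typeR K hR n) f ∧ T5.IsEK μ f ∧ T5.IsEK μ (T5.adjointFn f) ∧
          IsSuppAtM K 𝔫 P f ∧
          ∀ (𝒞 : InfinitePlace K → Set (GL (Fin 2) ℝ → ℂ)) (κr : InfinitePlace K → ℂ),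
            (∀ w, IsScalarClassR μr (n w) (𝒞 w)) →
            ∃ c : (HeightOneSpectrum (𝓞 K) → ℂ) → (HeightOneSpectrum (𝓞 K) → ℂ) → ℂ,
              ((∀ w, HasAbelScalarR μr (n w) (𝒞 w) (κr w)) →
                ∀ z₁ z₂ : HeightOneSpectrum (𝓞 K) → ℂ,
                  c z₁ z₂ = κ₀ * (∏ w, κr w) * ftCoordM K P Φ z₁ z₂) ∧
              ∀ φ : G K → ℂ, IsClassLevelR K hR 𝔫 𝒞 φ →
              ∀ a b z₁ z₂ : HeightOneSpectrum (𝓞 K) → ℂ,
                (∀ v ∈ P, IsHeckeEigenAt φ v (a v) (b v)) →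
                (∀ v ∈ P, z₁ v + z₂ v = a v) → (∀ v ∈ P, z₁ v * z₂ v = b v) →
                (∀ v ∈ P, b v ≠ 0) →
                ∀ g : G K, T5.Rconv μ f φ g = c z₁ z₂ * φ g

/-- EK for given local factors from the explicit form and the closed leaves of T3. -/
theorem ekOfPairR_of (hX : ExplicitRC K) (hk : EKKillC K) (hs : EKStarC K)
    (hν : InAddHaarC K) (hty : TypeRC K) : EKOfPairRC K := by
  let _ : MeasurableSpace (Adl K) := borel (Adl K)
  let _ : MeasurableSpace (G K) := borel (G K)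
  let _ : MeasurableSpace (GL (Fin 2) ℝ) := borel (GL (Fin 2) ℝ)
  intro hR μ hμ μr hμr 𝔫 P e a₀ α hfr hpos n
  obtain ⟨ν, hνH⟩ := hν
  obtain ⟨κ, Δ, κ₀, hκ₀, hall⟩ := hX hR μ hμ μr hμr ν hνH 𝔫 P e a₀ α hfr hpos n
  refine ⟨κ₀, hκ₀, fun Φ f hmem hΦsum => ?_⟩
  have hp := hall (Φ, f) hmem
  have hf := hp.cont
  have hfc := hp.supp
  have hEK : IsEK K ν f α := by
    intro g g'
    have h1 : (fun j : ℤ => ∫ x, f (g⁻¹ * unip K x * torK K α ^ j * g') ∂ν)
        = fun j : ℤ => κ g g' * Φ (Δ g g' + j • coordTorM K P e α) := by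
      funext j
      exact hp.n_int g g' j
    rw [h1]
    have h2 := (hΦsum (Δ g g')).mul_left (κ g g')
    rw [mul_zero] at h2
    exact h2
  have hstar : IsEK K ν (starG K f) α := hs ν hνH _ f hf hfc hEK
  have hsc : Continuous (starG K f) := by
    unfold starG
    exact (Complex.continuous_conj).comp (hf.comp continuous_inv)
  have hscc : HasCompactSupport (starG K f) := by
    unfold starG
    have h1 : HasCompactSupport (fun h : G K => f h⁻¹) := by
      have := hfc.comp_homeomorph (Homeomorph.inv (G K))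
      simpa [Function.comp_def] using this
    exact h1.comp_left (g := (starRingEnd ℂ)) (map_zero _)
  refine ⟨⟨hty hR n, hf, hfc, hp.smooth, hp.bi⟩,
    isEK_T5 K (ekOp_of_int K hk hμ hνH hf hfc hEK),
    isEK_T5 K (ekOp_of_int K hk hμ hνH hsc hscc hstar), hp.supp_at, ?_⟩
  intro 𝒞 κr h𝒞
  obtain ⟨c₀, hc₀, hop⟩ := hp.gen 𝒞 κr h𝒞
  refine ⟨c₀, hc₀, fun φ hφ a b z₁ z₂ he hz₁ hz₂ hb g => ?_⟩
  have hRT : T5.Rconv μ f φ g = Rop K μ f φ g := by
    unfold Rop T5.Rconv
    refine integral_congr_ae (Filter.Eventually.of_forall fun y => ?_)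
    exact mul_comm _ _
  rw [hRT]
  exact hop φ hφ a b z₁ z₂ he hz₁ hz₂ hb g

/-- **EK FOR GIVEN LOCAL FACTORS, UNCONDITIONAL.** -/
theorem ekOfPairR_c : EKOfPairRC K :=
  ekOfPairR_of K (explicitR_c K) (ekKill_u K) (ekStar_u K) (inAddHaar_u K) (H505.typeRC505 K)

end Fermat.Agent.LT.T3.R

end
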