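import Fermat.Agent.LT.T3.R.Spec
import Fermat.Agent.LT.T3.M.Top

/-!
# Row LT, tower T3, station T3.18R (architect helper14): THE PROVED TOPS

OFF-MAIN.  Complete proofs, nothing assumed.

* `abelSatakeR_of : AS.SatakeLocC K → AbelRealC → M.FtPureC → PureRegRC K → NIntRC K → ROpRC K →
  AbelSatakeRC K`;
* `ekOpExistR_of : AbelSatakeRC K → M.EKCoreC → InScalarUnifC K → EKKillC K → EKStarC K →
  InAddHaarC K → TypeRC K → EKOpExistRC K`;
* `ekOpExistMeanR_of : EKOpExistRC K → MeanActsRC → LocOfMeanRC K → InHaarRC → EKOpExistMeanRC K`.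
-/

set_option autoImplicit false
set_option linter.style.haveILetI false

open IsDedekindDomain NumberField MeasureTheory
open Fermat.Agent.LT.H556.A0

noncomputable section

namespace Fermat.Agent.LT.T3.R

open Fermat.Agent.LT.T3.AS Fermat.Agent.LT.T3.M

/-- INPUT: a Haar measure of `GL₂(ℝ)` exists (`GL₂(ℝ)` is a locally compact group). -/
def InHaarRC : Prop :=
  letI : MeasurableSpace (GL (Fin 2) ℝ) := borel (GL (Fin 2) ℝ)
  ∃ μr : Measure (GL (Fin 2) ℝ), μr.IsHaarMeasure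

variable (K : Type) [Field K] [NumberField K]

/-! ## 1. The induction predicate -/

/-- The induction predicate: `f` is a test function of type `typeR n` for `Φ`. -/
structure IsASPairR {mG : MeasurableSpace (G K)} {mA : MeasurableSpace (Adl K)}
    {mr : MeasurableSpace (GL (Fin 2) ℝ)}
    (hR : ∀ w : InfinitePlace K, w.IsReal)
    (μ : Measure (G K)) (μr : Measure (GL (Fin 2) ℝ)) (ν : Measure (Adl K))
    (𝔫 : Ideal (𝓞 K)) (P : Finset (HeightOneSpectrum (𝓞 K)))
    (e : HeightOneSpectrum (𝓞 K) → ℕ) (α : Kˣ) (n : InfinitePlace K → ℤ)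
    (κ : G K → G K → ℂ) (Δ : G K → G K → CoordM K P) (κ₀ : ℂ)
    (Φ : CoordM K P → ℂ) (f : G K → ℂ) : Prop where
  fin_m : ∃ M : Finset (P → ℤ × ℤ), ∀ m : P → ℤ × ℤ, m ∉ M →
    ∀ x : InfinitePlace K → ℝ × ℝ, Φ (m, x) = 0
  int_x : ∀ m : P → ℤ × ℤ, Integrable (fun x : InfinitePlace K → ℝ × ℝ => Φ (m, x))
  cont : Continuous f
  supp : HasCompactSupport f
  smooth : IsSmoothInf K f
  bi : T5.IsBiInvariant 𝔫 (typeR K hR n) f
  supp_at : IsSuppAtM K 𝔫 P f
  pair : (Φ, f) ∈ pairSpanR K hR 𝔫 P n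
  n_integrable : ∀ (g g' : G K) (j : ℤ),
    Integrable (fun x => f (g⁻¹ * unip K x * torK K α ^ j * g')) ν
  n_int : ∀ (g g' : G K) (j : ℤ),
    ∫ x, f (g⁻¹ * unip K x * torK K α ^ j * g') ∂ν
      = κ g g' * Φ (Δ g g' + j • coordTorM K P e α)
  gen : ∀ (𝒞 : InfinitePlace K → Set (GL (Fin 2) ℝ → ℂ)) (κr : InfinitePlace K → ℂ),
    (∀ w, IsScalarClassR μr (n w) (𝒞 w)) →
    ∃ c : (HeightOneSpectrum (𝓞 K) → ℂ) → (HeightOneSpectrum (𝓞 K) → ℂ) → ℂ,
      ((∀ w, HasAbelScalarR μr (n w) (𝒞 w) (κr w)) →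
        ∀ z₁ z₂ : HeightOneSpectrum (𝓞 K) → ℂ,
          c z₁ z₂ = κ₀ * (∏ w, κr w) * ftCoordM K P Φ z₁ z₂) ∧
      ∀ φ : G K → ℂ, IsClassLevelR K hR 𝔫 𝒞 φ →
      ∀ a b z₁ z₂ : HeightOneSpectrum (𝓞 K) → ℂ,
        (∀ v ∈ P, IsHeckeEigenAt φ v (a v) (b v)) →
        (∀ v ∈ P, z₁ v + z₂ v = a v) → (∀ v ∈ P, z₁ v * z₂ v = b v) →
        (∀ v ∈ P, b v ≠ 0) →
        ∀ g : G K, Rop K μ f φ g = c z₁ z₂ * φ g

variable {K}

section Linear

variable {mG : MeasurableSpace (G K)} {mA : MeasurableSpace (Adl K)}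
  {mr : MeasurableSpace (GL (Fin 2) ℝ)}
  {hR : ∀ w : InfinitePlace K, w.IsReal}
  {μ : Measure (G K)} {μr : Measure (GL (Fin 2) ℝ)} {ν : Measure (Adl K)} {𝔫 : Ideal (𝓞 K)}
  {P : Finset (HeightOneSpectrum (𝓞 K))} {e : HeightOneSpectrum (𝓞 K) → ℕ}
  {α : Kˣ} {n : InfinitePlace K → ℤ} {κ : G K → G K → ℂ} {Δ : G K → G K → CoordM K P} {κ₀ : ℂ}

theorem IsASPairR.zero : IsASPairR K hR μ μr ν 𝔫 P e α n κ Δ κ₀ 0 0 where
  fin_m := ⟨∅, fun _ _ _ => rfl⟩
  int_x := fun m => by
    have : (fun x : InfinitePlace K → ℝ × ℝ => (0 : CoordM K P → ℂ) (m, x)) = fun _ => 0 := rfl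
    rw [this]
    exact integrable_zero _ _ _
  cont := continuous_const
  supp := HasCompactSupport.zero
  smooth := IsSmoothInf.zero
  bi :=
    { level_right := fun _ _ _ => rfl
      level_left := fun _ _ _ => rfl
      arch_right := fun _ _ _ _ => by simp
      arch_left := fun _ _ _ _ => by simp }
  supp_at := fun _ hh => absurd rfl hh
  pair := Submodule.zero_mem _
  n_integrable := fun g g' j => by
    have : (fun x => (0 : G K → ℂ) (g⁻¹ * unip K x * torK K α ^ j * g')) = fun _ => 0 := rfl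
    rw [this]
    exact integrable_zero _ _ _
  n_int := fun g g' j => by simp
  gen := fun _ _ _ => ⟨fun _ _ => 0, fun _ z₁ z₂ => by simp [ftCoordM, ftCrd_zero],
    fun φ _ a b z₁ z₂ _ _ _ _ g => by simp [Rop]⟩

theorem IsASPairR.add [OpensMeasurableSpace (G K)] [IsFiniteMeasureOnCompacts μ]
    {Φ₁ Φ₂ : CoordM K P → ℂ} {f₁ f₂ : G K → ℂ}
    (h₁ : IsASPairR K hR μ μr ν 𝔫 P e α n κ Δ κ₀ Φ₁ f₁)
    (h₂ : IsASPairR K hR μ μr ν 𝔫 P e α n κ Δ κ₀ Φ₂ f₂) :
    IsASPairR K hR μ μr ν 𝔫 P e α n κ Δ κ₀ (Φ₁ + Φ₂) (f₁ + f₂) where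
  fin_m := by
    classical
    obtain ⟨M₁, hM₁⟩ := h₁.fin_m
    obtain ⟨M₂, hM₂⟩ := h₂.fin_m
    refine ⟨M₁ ∪ M₂, fun m hm x => ?_⟩
    rw [Finset.mem_union, not_or] at hm
    simp [hM₁ m hm.1 x, hM₂ m hm.2 x]
  int_x := fun m => (h₁.int_x m).add (h₂.int_x m)
  cont := h₁.cont.add h₂.cont
  supp := h₁.supp.add h₂.supp
  smooth := h₁.smooth.add h₂.smooth
  bi :=
    { level_right := fun u hu g => by
        simp only [Pi.add_apply, h₁.bi.level_right u hu g, h₂.bi.level_right u hu g]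
      level_left := fun u hu g => by
        simp only [Pi.add_apply, h₁.bi.level_left u hu g, h₂.bi.level_left u hu g]
      arch_right := fun w k hk g => by
        simp only [Pi.add_apply, h₁.bi.arch_right w k hk g, h₂.bi.arch_right w k hk g]
        ring
      arch_left := fun w k hk g => by
        simp only [Pi.add_apply, h₁.bi.arch_left w k hk g, h₂.bi.arch_left w k hk g]
        ring }
  supp_at := fun h hh => by
    by_cases h1 : f₁ h = 0
    · have h2 : f₂ h ≠ 0 := fun h2 => hh (by simp [h1, h2])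
      exact h₂.supp_at h h2
    · exact h₁.supp_at h h1
  pair := by
    have := Submodule.add_mem _ h₁.pair h₂.pair
    exact this
  n_integrable := fun g g' j => (h₁.n_integrable g g' j).add (h₂.n_integrable g g' j)
  n_int := fun g g' j => by
    simp only [Pi.add_apply]
    rw [integral_add (h₁.n_integrable g g' j) (h₂.n_integrable g g' j), h₁.n_int, h₂.n_int]
    ring
  gen := fun 𝒞 κr h𝒞 => by
    obtain ⟨c₁, hc₁, ho₁⟩ := h₁.gen 𝒞 κr h𝒞
    obtain ⟨c₂, hc₂, ho₂⟩ := h₂.gen 𝒞 κr h𝒞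
    refine ⟨fun z₁ z₂ => c₁ z₁ z₂ + c₂ z₁ z₂, fun hκ z₁ z₂ => ?_,
      fun φ hφ a b z₁ z₂ he hz₁ hz₂ hb g => ?_⟩
    · show c₁ z₁ z₂ + c₂ z₁ z₂ = _
      rw [hc₁ hκ z₁ z₂, hc₂ hκ z₁ z₂]
      unfold ftCoordM
      rw [ftCrd_add h₁.fin_m h₂.fin_m h₁.int_x h₂.int_x]
      ring
    · have e₁ := ho₁ φ hφ a b z₁ z₂ he hz₁ hz₂ hb g
      have e₂ := ho₂ φ hφ a b z₁ z₂ he hz₁ hz₂ hb g
      unfold Rop at e₁ e₂ ⊢
      have : (fun h => φ (g * h) * (f₁ + f₂) h)
          = fun h => φ (g * h) * f₁ h + φ (g * h) * f₂ h := by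
        funext h
        simp only [Pi.add_apply]
        ring
      rw [this, integral_add (rop_integrable μ hφ.cont h₁.cont h₁.supp g)
        (rop_integrable μ hφ.cont h₂.cont h₂.supp g), e₁, e₂]
      ring

theorem IsASPairR.smul {Φ : CoordM K P → ℂ} {f : G K → ℂ}
    (h : IsASPairR K hR μ μr ν 𝔫 P e α n κ Δ κ₀ Φ f) (c : ℂ) :
    IsASPairR K hR μ μr ν 𝔫 P e α n κ Δ κ₀ (c • Φ) (c • f) where
  fin_m := by
    obtain ⟨M, hM⟩ := h.fin_m
    exact ⟨M, fun m hm x => by simp [hM m hm x]⟩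
  int_x := fun m => (h.int_x m).const_mul c
  cont := h.cont.const_smul c
  supp := h.supp.mono fun x hx => by
    rw [Function.mem_support] at hx ⊢
    intro h0
    exact hx (by simp [h0])
  smooth := h.smooth.smul c
  bi :=
    { level_right := fun u hu g => by
        simp only [Pi.smul_apply, h.bi.level_right u hu g]
      level_left := fun u hu g => by
        simp only [Pi.smul_apply, h.bi.level_left u hu g]
      arch_right := fun w k hk g => by
        simp only [Pi.smul_apply, smul_eq_mul, h.bi.arch_right w k hk g]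
        ring
      arch_left := fun w k hk g => by
        simp only [Pi.smul_apply, smul_eq_mul, h.bi.arch_left w k hk g]
        ring }
  supp_at := fun y hy => by
    have h1 : f y ≠ 0 := fun h1 => hy (by simp [h1])
    exact h.supp_at y h1
  pair := by
    have := Submodule.smul_mem _ c h.pair
    exact this
  n_integrable := fun g g' j => (h.n_integrable g g' j).const_mul c
  n_int := fun g g' j => by
    simp only [Pi.smul_apply, smul_eq_mul]
    rw [integral_const_mul, h.n_int]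
    ring
  gen := fun 𝒞 κr h𝒞 => by
    obtain ⟨c₁, hc₁, ho₁⟩ := h.gen 𝒞 κr h𝒞
    refine ⟨fun z₁ z₂ => c * c₁ z₁ z₂, fun hκ z₁ z₂ => ?_,
      fun φ hφ a b z₁ z₂ he hz₁ hz₂ hb g => ?_⟩
    · show c * c₁ z₁ z₂ = _
      rw [hc₁ hκ z₁ z₂]
      unfold ftCoordM
      rw [ftCrd_smul]
      ring
    · have e₁ := ho₁ φ hφ a b z₁ z₂ he hz₁ hz₂ hb g
      unfold Rop at e₁ ⊢
      have : (fun y => φ (g * y) * (c • f) y) = fun y => c * (φ (g * y) * f y) := by
        funext y
        simp only [Pi.smul_apply, smul_eq_mul]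
        ring
      rw [this, integral_const_mul, e₁]
      ring

end Linear

/-! ## 2. The top of the Abel--Satake pair -/

variable (K)

/-- **The Abel--Satake pair at real places: the top.** -/
theorem abelSatakeR_of (h1 : SatakeLocC K) (h2 : AbelRealC) (hft : FtPureC)
    (h3 : PureRegRC K) (h4 : NIntRC K) (h5 : ROpRC K) : AbelSatakeRC K := by
  let _ : MeasurableSpace (Adl K) := borel (Adl K)
  let _ : MeasurableSpace (G K) := borel (G K)
  let _ : MeasurableSpace (GL (Fin 2) ℝ) := borel (GL (Fin 2) ℝ)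
  have _ : BorelSpace (G K) := ⟨rfl⟩
  intro hR μ hμ μr hμr ν hν 𝔫 P e a₀ α hfr hpos n hn
  obtain ⟨κ, Δ, hN⟩ := h4 hR ν hν 𝔫 P e a₀ α hfr hpos n
  obtain ⟨κ₁, hκ₁, hRop⟩ := h5 hR μ hμ μr hμr 𝔫 hfr.level P hfr.prime
  refine ⟨κ, Δ, κ₁, hκ₁, ?_⟩
  intro Φ hΦ
  suffices h : ∃ f : G K → ℂ, IsASPairR K hR μ μr ν 𝔫 P e α n κ Δ κ₁ Φ f by
    obtain ⟨f, hf⟩ := h
    exact ⟨f, hf.cont, hf.supp, hf.smooth, hf.bi, hf.supp_at, hf.pair, hf.n_int, hf.gen⟩
  induction hΦ using Submodule.span_induction with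
  | zero => exact ⟨0, IsASPairR.zero⟩
  | add Φ₁ Φ₂ _ _ ih₁ ih₂ =>
    obtain ⟨f₁, hf₁⟩ := ih₁
    obtain ⟨f₂, hf₂⟩ := ih₂
    exact ⟨f₁ + f₂, hf₁.add hf₂⟩
  | smul c Φ _ ih =>
    obtain ⟨f, hf⟩ := ih
    exact ⟨c • f, hf.smul c⟩
  | mem Φ hΦ =>
    classical
    obtain ⟨A', β, hA', hβ, hΦ⟩ := hΦ
    -- the total family of Satake coefficients
    set A : HeightOneSpectrum (𝓞 K) → ℤ × ℤ → ℂ :=
      fun v => if h : v ∈ P then A' ⟨v, h⟩ else 0 with hAdef
    have hAA' : (fun v : P => A v) = A' := by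
      funext v
      simp only [hAdef, dif_pos v.2, Subtype.coe_eta]
    have hAsym : ∀ v, IsSymFin (A v) := by
      intro v
      by_cases hv : v ∈ P
      · simp only [hAdef, dif_pos hv]
        exact hA' ⟨v, hv⟩
      · simp only [hAdef, dif_neg hv]
        exact ⟨by simp, fun _ _ => rfl⟩
    have hΦ' : Φ = pureCoordM K P A β := by
      rw [hΦ]
      unfold pureCoordM
      rw [hAA']
    subst hΦ'
    choose f₀ hpair using fun v : HeightOneSpectrum (𝓞 K) => h1 v (A v) (hAsym v)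
    choose F hF1 hF2 using fun w : InfinitePlace K => h2 (n w) (hn w) (β w) (hβ w)
    obtain ⟨r1, r2, r3, r4, r5⟩ := h3 hR 𝔫 hfr.level P hfr.prime n f₀ F
      (fun v _ => (hpair v).bi_inv) (fun v _ => (hpair v).fin_supp) hF1
    have hNN := hN A β f₀ F (fun v _ => (hpair v).bi_inv) (fun v _ => (hpair v).fin_supp)
      (fun v _ => (hpair v).n_int) hF1 hF2
    have hft' : ∀ z₁ z₂ : HeightOneSpectrum (𝓞 K) → ℂ,
        ftCoordM K P (pureCoordM K P A β) z₁ z₂
          = (∏ v ∈ P, laurent (A v) (z₁ v) (z₂ v)) * ∏ w : InfinitePlace K, ∫ x : ℝ × ℝ, β w x := by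
      intro z₁ z₂
      unfold ftCoordM pureCoordM
      rw [hft P (InfinitePlace K) (fun v : P => A v) β (fun i => (hAsym i).1)
        (fun v : P => z₁ v) (fun v : P => z₂ v),
        Finset.prod_coe_sort P (fun v => laurent (A v) (z₁ v) (z₂ v))]
    refine ⟨pureFnR K hR 𝔫 P f₀ F,
      { fin_m := ⟨Fintype.piFinset fun i : P => (hAsym i).1.toFinset, fun m hm x => ?_⟩
        int_x := fun m => ?_
        cont := r1
        supp := r2
        smooth := r3
        bi := r4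
        supp_at := r5
        pair := Submodule.subset_span
          ⟨A, β, f₀, F, hAsym, hβ, fun v _ => hpair v, hF1, hF2, rfl⟩
        n_integrable := fun g g' j => (hNN g g' j).1
        n_int := fun g g' j => (hNN g g' j).2
        gen := fun 𝒞 κr h𝒞 => ?_ }⟩
    · rw [Fintype.mem_piFinset, not_forall] at hm
      obtain ⟨i, hi⟩ := hm
      rw [Set.Finite.mem_toFinset, Function.mem_support, not_not] at hi
      have : ∏ v : P, A v (m v) = 0 := Finset.prod_eq_zero (Finset.mem_univ i) hi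
      show (∏ v : P, A v (m v)) * ∏ w : InfinitePlace K, β w (x w) = 0
      rw [this, zero_mul]
    · have : (fun x : InfinitePlace K → ℝ × ℝ => pureCoordM K P A β (m, x))
          = fun x => (∏ v : P, A v (m v)) * ∏ w : InfinitePlace K, β w (x w) := rfl
      rw [this]
      refine Integrable.const_mul ?_ _
      exact Integrable.fintype_prod (f := β) (μ := fun _ => volume) fun w =>
        (hβ w).1.continuous.integrable_of_hasCompactSupport (hβ w).2.1
    · -- the scalars at the real places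
      choose Cg hCg using fun w : InfinitePlace K => h𝒞 w (F w) (hF1 w)
      set Cw : InfinitePlace K → ℂ := fun w =>
        if HasAbelScalarR μr (n w) (𝒞 w) (κr w) then κr w * ∫ x : ℝ × ℝ, β w x else Cg w
        with hCw
      have hCwa : ∀ w : InfinitePlace K, ActsOnR μr (F w) (𝒞 w) (Cw w) := by
        intro w
        by_cases hm : HasAbelScalarR μr (n w) (𝒞 w) (κr w)
        · simp only [hCw, if_pos hm]
          exact hm (F w) (β w) (hF1 w) (hF2 w)
        · simp only [hCw, if_neg hm]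
          exact hCg w
      refine ⟨fun z₁ z₂ => κ₁ * (∏ v ∈ P, laurent (A v) (z₁ v) (z₂ v))
          * ∏ w : InfinitePlace K, Cw w, fun hκ z₁ z₂ => ?_,
        fun φ hφ a b z₁ z₂ he hz₁ hz₂ hb g => ?_⟩
      · have e1 : ∀ w : InfinitePlace K, Cw w = κr w * ∫ x : ℝ × ℝ, β w x := fun w => by
          simp only [hCw, if_pos (hκ w)]
        show κ₁ * (∏ v ∈ P, laurent (A v) (z₁ v) (z₂ v)) * ∏ w : InfinitePlace K, Cw w = _
        simp only [e1]
        rw [hft' z₁ z₂, Finset.prod_mul_distrib]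
        ring
      · exact hRop n A Cw 𝒞 f₀ F (fun v _ => (hpair v).bi_inv)
          (fun v _ => (hpair v).fin_supp) (fun v _ => (hpair v).eigen) hF1 hCwa φ hφ
          a b z₁ z₂ he hz₁ hz₂ hb g

/-! ## 3. The Eisenstein-killing test function -/

/-- **THE OUTPUT of station T3.18R: the top.** -/
theorem ekOpExistR_of (hAS : AbelSatakeRC K) (hcore : EKCoreC) (hSU : InScalarUnifC K)
    (hk : EKKillC K) (hs : EKStarC K) (hν : InAddHaarC K) (hty : TypeRC K) :
    EKOpExistRC K := by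
  let _ : MeasurableSpace (Adl K) := borel (Adl K)
  let _ : MeasurableSpace (G K) := borel (G K)
  let _ : MeasurableSpace (GL (Fin 2) ℝ) := borel (GL (Fin 2) ℝ)
  intro hR μ hμ μr hμr 𝔫 P e a₀ h𝔫 hP hPe hspan hmem hpos n hn
  obtain ⟨ν, hνH⟩ := hν
  have ha₀ : algebraMap (𝓞 K) K a₀ ≠ 0 := by
    intro h0
    have h0' : a₀ = 0 :=
      (map_eq_zero_iff (algebraMap (𝓞 K) K) (FaithfulSMul.algebraMap_injective (𝓞 K) K)).1 h0
    rw [h0'] at hspan
    have hbot : (∏ v ∈ P, v.asIdeal ^ e v) = ⊥ := by rw [← hspan]; simp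
    rw [← Ideal.zero_eq_bot, Finset.prod_eq_zero_iff] at hbot
    obtain ⟨v, hvP, hv⟩ := hbot
    exact v.ne_bot ((pow_eq_zero_iff (Nat.pos_iff_ne_zero.1 (hPe v hvP).2)).1 hv)
  set α : Kˣ := Units.mk0 _ ha₀ with hα
  have hfr : FrameM K 𝔫 P e a₀ α :=
    ⟨h𝔫, hP, fun v hv => (hPe v hv).1, fun v hv => (hPe v hv).2, hspan, hmem, rfl⟩
  have hposα : IsTotPos K hR α := fun w => hpos w
  obtain ⟨κ, Δ, κ₀, hκ₀, hΦall⟩ := hAS hR μ hμ μr hμr ν hνH 𝔫 P e a₀ α hfr hposα n hn
  haveI : Nonempty P := hP.to_subtype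
  obtain ⟨Φ, hΦmem, hΦsum, hΦft⟩ :=
    hcore P (InfinitePlace K) (fun v : P => e v) (fun w => Real.log (w (α : K)))
      (fun v => hfr.pos v v.2)
  obtain ⟨f, hf, hfc, hsm, hbi, hsupp, -, hfi, hgen⟩ := hΦall Φ hΦmem
  have hEK : IsEK K ν f α := by
    intro g g'
    have h1 : (fun j : ℤ => ∫ x, f (g⁻¹ * unip K x * torK K α ^ j * g') ∂ν)
        = fun j : ℤ => κ g g' * Φ (Δ g g' + j • coordTorM K P e α) := by
      funext j
      exact hfi g g' j
    rw [h1]
    have h2 := (hΦsum (Δ g g')).mul_left (κ g g')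
    rw [mul_zero] at h2
    exact h2
  have hstar : IsEK K ν (starG K f) α := hs ν hνH _ f hf hfc hEK
  have hsc : Continuous (starG K f) := by
    unfold starG
    exact (Complex.continuous_conj).comp (hf.comp continuous_inv)
  have hscc : HasCompactSupport (starG K f) := by
    unfold starG
    have h1 : HasCompactSupport (fun h : G K => f h⁻¹) := by
      have := hfc.comp_homeomorph (Homeomorph.inv (G K))
      simpa [Function.comp_def] using this
    exact h1.comp_left (g := (starRingEnd ℂ)) (map_zero _)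
  refine ⟨f, ⟨hty hR n, hf, hfc, hsm, hbi⟩,
    isEK_T5 K (ekOp_of_int K hk hμ hνH hf hfc hEK),
    isEK_T5 K (ekOp_of_int K hk hμ hνH hsc hscc hstar), hsupp, ?_⟩
  intro 𝒞 κr h𝒞
  obtain ⟨c₀, hc₀, hop⟩ := hgen 𝒞 κr h𝒞
  classical
  refine ⟨fun a b => if ∃ v ∈ P, b v = 0 then 1 else
    c₀ (fun v => H732.root1_732 (a v) (b v)) (fun v => H732.root2_732 (a v) (b v)), ?_, ?_⟩
  · intro hκ hκne a b hgood
    by_cases hb : ∃ v ∈ P, b v = 0
    · simp only [if_pos hb]
      exact one_ne_zero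
    · simp only [if_neg hb]
      simp only [not_exists, not_and] at hb
      rw [hc₀ hκ _ _]
      have hr₁ : ∀ v : P, H732.root1_732 (a v) (b v) ≠ 0 := fun v h =>
        hb v v.2 (by rw [← (H732.roots_spec732 (a v) (b v)).2, h, zero_mul])
      have hr₂ : ∀ v : P, H732.root2_732 (a v) (b v) ≠ 0 := fun v h =>
        hb v v.2 (by rw [← (H732.roots_spec732 (a v) (b v)).2, h, mul_zero])
      refine mul_ne_zero (mul_ne_zero hκ₀ (Finset.prod_ne_zero_iff.2 fun w _ => hκne w))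
        (hΦft _ _ hr₁ hr₂ ?_)
      intro z hz
      have key := hgood (fun v => if h : v ∈ P then z ⟨v, h⟩ else 0) ?_
      · rw [← Finset.prod_coe_sort P] at key
        have e1 : ∀ v : P, (if h : (v : HeightOneSpectrum (𝓞 K)) ∈ P then
            z ⟨v, h⟩ else 0) = z v := fun v => by
          simp only [dif_pos v.2, Subtype.coe_eta]
        simpa only [e1] using key
      · intro v hv
        simp only [dif_pos hv]
        obtain ⟨hs', hp'⟩ := H732.roots_spec732 (a v) (b v)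
        rcases hz ⟨v, hv⟩ with h | h
        · rw [h]
          linear_combination (H732.root1_732 (a v) (b v)) * hs' - hp'
        · rw [h]
          linear_combination (H732.root2_732 (a v) (b v)) * hs' - hp'
  · intro φ hφ a b hecke g
    have hRT : T5.Rconv μ f φ g = Rop K μ f φ g := by
      unfold Rop T5.Rconv
      refine integral_congr_ae (Filter.Eventually.of_forall fun y => ?_)
      exact mul_comm _ _
    rw [hRT]
    by_cases hb : ∃ v ∈ P, b v = 0
    · simp only [if_pos hb, one_mul]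
      obtain ⟨v, hv, hbv⟩ := hb
      have hecke' := hecke v hv
      rw [hbv] at hecke'
      have hzero : ∀ g : G K, φ g = 0 := H732.eq_zero_of_b_eq_zero732 K hSU hecke'
      rw [hzero g]
      unfold Rop
      simp only [hzero, zero_mul, integral_zero]
    · simp only [if_neg hb]
      simp only [not_exists, not_and] at hb
      exact hop φ hφ a b _ _ hecke (fun v _ => (H732.roots_spec732 (a v) (b v)).1)
        (fun v _ => (H732.roots_spec732 (a v) (b v)).2) hb g

/-- **The output for the joint eigenfunctions of the circle means: the top.** -/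
theorem ekOpExistMeanR_of (h : EKOpExistRC K) (hM : MeanActsRC) (hL : LocOfMeanRC K)
    (hH : InHaarRC) : EKOpExistMeanRC K := by
  let _ : MeasurableSpace (G K) := borel (G K)
  let _ : MeasurableSpace (GL (Fin 2) ℝ) := borel (GL (Fin 2) ℝ)
  intro hR μ hμ 𝔫 P e a₀ h𝔫 hP hPe hspan hmem hpos n hn
  obtain ⟨μr, hμr⟩ := hH
  obtain ⟨f, h1, h2, h3, h4, hact⟩ :=
    h hR μ hμ μr hμr 𝔫 P e a₀ h𝔫 hP hPe hspan hmem hpos n hn
  choose c _ hc using fun m : InfinitePlace K → ℝ → ℂ =>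
    hact (fun w => locClassR (n w) (m w)) (fun _ => 0) (fun w => hM μr hμr (n w) (hn w) (m w))
  exact ⟨f, h1, h2, h3, h4, fun a b m => c m a b,
    fun φ m hφ a b he g => hc m φ (hL hR 𝔫 n m φ hφ) a b he g⟩

end Fermat.Agent.LT.T3.R

end
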