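import Fermat.Agent.LT.T3.R.Closed
import Fermat.Agent.LT.T3.R.H96.MeanActsR
import Fermat.Agent.LT.T3.R.H709.PureRegR
import Fermat.Agent.LT.T3.R.H857.PureUpperR
import Fermat.Agent.LT.T3.R.H129.SplitR
import Fermat.Agent.LT.T3.R.H611.LocValInfR
import Fermat.Agent.LT.T3.R.H969.ProdFormR
import Fermat.Agent.LT.T3.R.H505.TypeR
import Fermat.Agent.LT.T3.R.H981.LocOfMean
import Fermat.Agent.LT.T3.R.H247.InHaarR
import Fermat.Agent.LT.T3.R.H134.AbelReal
import Fermat.Agent.LT.T6.H626.Closed626d

/-!
# Row LT, tower T3, station T3.18R (architect helper14): THE STATION MODULO R.4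

OFF-MAIN.  Complete proofs, nothing assumed.  All leaves of `R/Spec.lean` (a528b35a) except
R.4 `ROpRC` are discharged here from the files of their owners (byte-identical copies):

| leaf | owner | file |
|---|---|---|
| R.1 `AbelRealC` | helper134 (adapter), helper626 (`abelExistC626_closed`) | `R/H134/AbelReal.lean` |
| R.2 `MeanActsRC` | helper96 | `R/H96/MeanActsR.lean` |
| R.3 `PureRegRC` | helper709 | `R/H709/PureRegR.lean` |
| R.5 `PureUpperRC` | helper857 | `R/H857/PureUpperR.lean` |
| R.6 `SplitRC` | helper129 | `R/H129/SplitR.lean` |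
| R.7 `LocValInfRC` | helper611 | `R/H611/LocValInfR.lean` |
| R.8 `ProdFormRC` | helper969 | `R/H969/ProdFormR.lean` |
| R.9 `TypeRC` | helper505 | `R/H505/TypeR.lean` |
| R.10 `LocOfMeanRC` | helper981 | `R/H981/LocOfMean.lean` |
| R.12 `InHaarRC` | helper247 | `R/H247/InHaarR.lean` |

UNCONDITIONAL here: `abelRealC_c`, `nIntR_c`.  From R.4 alone: `openR_of_rOp`,
`abelSatakeR_of_rOp`, `ekOpExistR_of_rOp`, `openMeanR_of_rOp`, `ekOpExistMeanR_of_rOp`.
-/

set_option autoImplicit false
set_option linter.style.haveILetI false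

open IsDedekindDomain NumberField MeasureTheory
open Fermat.Agent.LT.H556.A0

noncomputable section

namespace Fermat.Agent.LT.T3.R

open Fermat.Agent.LT.T3.AS Fermat.Agent.LT.T3.M

/-- **R.1 CLOSED**: Abel inversion on `GL₂(ℝ)`, weights `0, ±1` (composition of the closed complex
Abel inversion of tower T3 and the closed Abel relation T6.20a of helper626). -/
theorem abelRealC_c : AbelRealC :=
  H134.abelRealC_of134 abelCplxSmooth_closed T6.H626.abelExistC626_closed

variable (K : Type) [Field K] [NumberField K]

/-- **The `N`-integral at real places, UNCONDITIONAL.** -/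
theorem nIntR_c : NIntRC K :=
  nIntR_of K (H543.iwasawaFormC_of_h543 K (T1.t1Out K).iwasawa) (H857.pureUpperRC857 K)
    (openM_c K).outsideCoset (H162.affineC162 K (T1.t1Out K).locComp) (H129.splitRC129 K)
    (openM_c K).locValFin (H611.locValInfRC611 K) (H969.prodFormRC969 K)

/-- The open part of the station from R.4 alone. -/
theorem openR_of_rOp (h : ROpRC K) : OpenR K where
  abelReal := abelRealC_c
  pureReg := H709.pureRegRC709 K
  rOp := h
  pureUpper := H857.pureUpperRC857 K
  split := H129.splitRC129 K
  locValInf := H611.locValInfRC611 K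
  prodForm := H969.prodFormRC969 K
  type := H505.typeRC505 K

/-- The open part (joint eigenfunctions of the circle means) from R.4 alone. -/
theorem openMeanR_of_rOp (h : ROpRC K) : OpenMeanR K where
  toOpenR := openR_of_rOp K h
  meanActs := H96.meanActsRC96
  locOfMean := H981.locOfMeanRC981 K
  haarR := H247.inHaarRC247

/-- The Abel--Satake pair at real places from R.4 alone. -/
theorem abelSatakeR_of_rOp (h : ROpRC K) : AbelSatakeRC K :=
  abelSatakeR_of_open K (openR_of_rOp K h)

/-- **THE OUTPUT of station T3.18R from R.4 alone.** -/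
theorem ekOpExistR_of_rOp (h : ROpRC K) : EKOpExistRC K :=
  ekOpExistR_of_open K (openR_of_rOp K h)

/-- **THE OUTPUT for the joint eigenfunctions of the circle means from R.4 alone.** -/
theorem ekOpExistMeanR_of_rOp (h : ROpRC K) : EKOpExistMeanRC K :=
  ekOpExistMeanR_of_open K (openMeanR_of_rOp K h)

end Fermat.Agent.LT.T3.R

end
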