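import Fermat.Agent.LT.T3.R.Spec
import Fermat.Agent.LT.T3.M.NIntTop

/-!
# Row LT, tower T3, station T3.18R (architect helper14): THE TOP of the `N`-integral, real places

OFF-MAIN.  Complete proof, nothing assumed.

`nIntR_of : N893.IwasawaFormC K → PureUpperRC K → M.OutsideCosetMC K → N893.AffineC K →
SplitRC K → M.LocValFinMC K → LocValInfRC K → ProdFormRC K → NIntRC K`
(the top `M.nIntM_of` with the real places, the type factor and the sign factor).
-/

set_option autoImplicit false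
set_option linter.style.haveILetI false

open IsDedekindDomain NumberField MeasureTheory
open Fermat.Agent.LT.H556.A0

noncomputable section

namespace Fermat.Agent.LT.T3.R

open Fermat.Agent.LT.T3.AS Fermat.Agent.LT.T3.AS.N893 Fermat.Agent.LT.T3.M

variable (K : Type) [Field K] [NumberField K]

/-- **THE TOP of the `N`-integral at real places.** -/
theorem nIntR_of (h1 : IwasawaFormC K) (h2 : PureUpperRC K) (h3 : OutsideCosetMC K)
    (h4 : AffineC K) (h5 : SplitRC K) (h6 : LocValFinMC K) (h7 : LocValInfRC K)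
    (h8 : ProdFormRC K) : NIntRC K := by
  intro hR ν hν 𝔫 P e a₀ α hfr hpos n
  letI : MeasurableSpace (Adl K) := borel (Adl K)
  obtain ⟨ν₀, hν₀, c₀, hsplit⟩ := h5 hR ν hν 𝔫 hfr.level P
  choose k₁ k' c₁ c₂ a hk₁ hk' hform using h1 α
  choose ca hca using fun g g' : G K => h4 ν hν (a g g')
  have hprodform := h8 hR 𝔫 P e a₀ α hfr
  classical
  refine ⟨fun g g' =>
      if ∃ (j : ℤ) (X : Adl K), OutsideUM K 𝔫 P
          (k₁ g g' * upperGL (c₁ g g' * T1.ratUnit K α ^ j) (c₂ g g') X * k' g g') then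
        ((typeR K hR n (k₁ g g'))⁻¹ * (typeR K hR n (k' g g'))⁻¹)
          * (ca g g' * c₀
          * (∏ v ∈ P,
              ((ν₀ v (v.adicCompletionIntegers K : Set (v.adicCompletion K))).toReal : ℂ)
              * (((Ideal.absNorm v.asIdeal : ℝ) ^
                (-(((ordA K v (c₁ g g') + ordA K v (c₂ g g') : ℤ) : ℝ)) / 2) : ℝ) : ℂ))
          * ∏ w : InfinitePlace K,
              sgnR (n w) ((reU K w (hR w) (c₁ g g') : ℝˣ) : ℝ)
                  ((reU K w (hR w) (c₂ g g') : ℝˣ) : ℝ)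
                * ((Real.sqrt (|((reU K w (hR w) (c₁ g g') : ℝˣ) : ℝ)|
                    * |((reU K w (hR w) (c₂ g g') : ℝˣ) : ℝ)|) : ℝ) : ℂ))
      else 0,
    fun g g' => ((fun v : P => (ordA K v (c₁ g g'), ordA K v (c₂ g g'))),
      fun w => (Real.log |((reU K w (hR w) (c₁ g g') : ℝˣ) : ℝ)|,
        Real.log |((reU K w (hR w) (c₂ g g') : ℝˣ) : ℝ)|)), ?_⟩
  intro A β f₀ F hf₀ hRs hSat hF hAb g g' j
  obtain ⟨r, hr⟩ := hform g g' j
  -- the pure tensor in upper triangular form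
  have hP : ∀ x : Adl K, pureFnR K hR 𝔫 P f₀ F (g⁻¹ * unip K x * torK K α ^ j * g')
      = (if OutsideUM K 𝔫 P (k₁ g g' * upperGL (c₁ g g' * T1.ratUnit K α ^ j) (c₂ g g')
            ((a g g' : Adl K) * x + r) * k' g g') then (1 : ℂ) else 0)
        * ((typeR K hR n (k₁ g g'))⁻¹ * (typeR K hR n (k' g g'))⁻¹)
        * (∏ v ∈ P, f₀ v (upperGL (finU K v (c₁ g g' * T1.ratUnit K α ^ j))
            (finU K v (c₂ g g')) (finHom K v ((a g g' : Adl K) * x + r))))
        * ∏ w : InfinitePlace K, F w (upperGL (reU K w (hR w) (c₁ g g' * T1.ratUnit K α ^ j))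
            (reU K w (hR w) (c₂ g g')) (reHom K w (hR w) ((a g g' : Adl K) * x + r))) := by
    intro x
    rw [hr x]
    exact h2 hR 𝔫 P n f₀ F hf₀ hF (k₁ g g') (k' g g') (hk₁ g g') (hk' g g') _ _ _
  beta_reduce
  rw [pureCoordM_shift K P A β (fun v => ordA K v (c₁ g g')) (fun v => ordA K v (c₂ g g'))]
  by_cases hex : ∃ (j : ℤ) (X : Adl K), OutsideUM K 𝔫 P
      (k₁ g g' * upperGL (c₁ g g' * T1.ratUnit K α ^ j) (c₂ g g') X * k' g g')
  · rw [if_pos hex]
    obtain ⟨j₀, X₀, hX₀⟩ := hex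
    -- the condition outside `S'` is the indicator of a coset
    have hind : ∀ X : Adl K,
        (if OutsideUM K 𝔫 P (k₁ g g' * upperGL (c₁ g g' * T1.ratUnit K α ^ j) (c₂ g g') X
            * k' g g') then (1 : ℂ) else 0)
          = (outGrpM K 𝔫 P).indicator (fun _ => (1 : ℂ)) (X - X₀) := by
      intro X
      have hiff := h3 𝔫 P e a₀ α hfr (k₁ g g') (k' g g') (hk₁ g g') (hk' g g')
        (c₁ g g') (c₂ g g') j₀ j X₀ X hX₀
      by_cases hO : OutsideUM K 𝔫 P (k₁ g g' * upperGL (c₁ g g' * T1.ratUnit K α ^ j)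
          (c₂ g g') X * k' g g')
      · rw [if_pos hO, Set.indicator_of_mem (hiff.1 hO)]
      · rw [if_neg hO, Set.indicator_of_notMem (fun h => hO (hiff.2 h))]
    -- the local functions
    set φ₀ : ∀ v : HeightOneSpectrum (𝓞 K), v.adicCompletion K → ℂ := fun v x =>
      f₀ v (upperGL (finU K v (c₁ g g' * T1.ratUnit K α ^ j)) (finU K v (c₂ g g'))
        (x + finHom K v X₀)) with hφ₀
    set φ : InfinitePlace K → ℝ → ℂ := fun w z =>
      F w (upperGL (reU K w (hR w) (c₁ g g' * T1.ratUnit K α ^ j)) (reU K w (hR w) (c₂ g g'))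
        (z + reHom K w (hR w) X₀)) with hφ
    set Q : Adl K → ℂ := fun Y => (outGrpM K 𝔫 P).indicator (fun _ => (1 : ℂ)) Y
      * (∏ v ∈ P, φ₀ v (finHom K v Y))
      * ∏ w : InfinitePlace K, φ w (reHom K w (hR w) Y) with hQ
    set ty : ℂ := (typeR K hR n (k₁ g g'))⁻¹ * (typeR K hR n (k' g g'))⁻¹ with hty
    have hPQ : (fun x : Adl K => pureFnR K hR 𝔫 P f₀ F (g⁻¹ * unip K x * torK K α ^ j * g'))
        = fun x : Adl K => ty * Q ((a g g' : Adl K) * x + (r - X₀)) := by
      funext x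
      rw [hP x, hind]
      have e1 : (a g g' : Adl K) * x + r - X₀ = (a g g' : Adl K) * x + (r - X₀) := by ring
      have e2 : (a g g' : Adl K) * x + (r - X₀) + X₀ = (a g g' : Adl K) * x + r := by ring
      simp only [hQ, hφ₀, hφ]
      rw [e1]
      have e3 : ∀ v : HeightOneSpectrum (𝓞 K),
          finHom K v ((a g g' : Adl K) * x + (r - X₀)) + finHom K v X₀
            = finHom K v ((a g g' : Adl K) * x + r) := fun v => by
        rw [← map_add, e2]
      have e4 : ∀ w : InfinitePlace K,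
          reHom K w (hR w) ((a g g' : Adl K) * x + (r - X₀)) + reHom K w (hR w) X₀
            = reHom K w (hR w) ((a g g' : Adl K) * x + r) := fun w => by
        rw [← map_add, e2]
      simp only [e3, e4]
      ring
    have hl := fun (v : HeightOneSpectrum (𝓞 K)) (hv : v ∈ P) =>
      h6 𝔫 P e a₀ α hfr v hv (ν₀ v) (hν₀ v) (f₀ v) (A v) (hf₀ v hv) (hRs v hv) (hSat v hv)
        (c₁ g g') (c₂ g g') j (finHom K v X₀)
    have hw := fun w : InfinitePlace K =>
      h7 hR α hpos w (n w) (F w) (β w) (hF w) (hAb w) (c₁ g g') (c₂ g g') j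
        (reHom K w (hR w) X₀)
    obtain ⟨hQi, hQv⟩ := hsplit φ₀ φ (fun v hv => (hl v hv).1) (fun v hv => (hl v hv).2.1)
      (fun w => (hw w).1) (fun w => (hw w).2.1)
    obtain ⟨hPi, hPv⟩ := hca g g' (r - X₀) Q hQi
    rw [hPQ]
    refine ⟨hPi.const_mul ty, ?_⟩
    rw [integral_const_mul, hPv, hQv, mul_assoc ty]
    congr 1
    have hwv : ∀ w : InfinitePlace K, ∫ z : ℝ, φ w z
        = sgnR (n w) ((reU K w (hR w) (c₁ g g') : ℝˣ) : ℝ)
              ((reU K w (hR w) (c₂ g g') : ℝˣ) : ℝ)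
          * ((Real.sqrt (|((reU K w (hR w) (c₁ g g') : ℝˣ) : ℝ)|
                * |((reU K w (hR w) (c₂ g g') : ℝˣ) : ℝ)|)
              * Real.sqrt (w (α : K)) ^ j : ℝ) : ℂ)
          * β w (Real.log |((reU K w (hR w) (c₁ g g') : ℝˣ) : ℝ)|
                + j * Real.log (w (α : K)),
              Real.log |((reU K w (hR w) (c₂ g g') : ℝˣ) : ℝ)|) := fun w => (hw w).2.2
    simp_rw [hwv]
    rw [Finset.prod_congr rfl fun v hv => (hl v hv).2.2]
    have hpf : (∏ v ∈ P, (((Ideal.absNorm v.asIdeal : ℝ) ^ (-(e v : ℝ) / 2) : ℝ) : ℂ))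
        * ∏ w : InfinitePlace K, ((Real.sqrt (w (α : K)) : ℝ) : ℂ) = 1 := by
      rw [← Complex.ofReal_prod, ← Complex.ofReal_prod, ← Complex.ofReal_mul, hprodform,
        Complex.ofReal_one]
    have key := top_algebraM (HeightOneSpectrum (𝓞 K)) (InfinitePlace K) P (ca g g') c₀
      (fun v => ((ν₀ v (v.adicCompletionIntegers K : Set (v.adicCompletion K))).toReal : ℂ))
      (fun v => (((Ideal.absNorm v.asIdeal : ℝ) ^
          (-(((ordA K v (c₁ g g') + ordA K v (c₂ g g') : ℤ) : ℝ)) / 2) : ℝ) : ℂ))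
      (fun v => (((Ideal.absNorm v.asIdeal : ℝ) ^ (-(e v : ℝ) / 2) : ℝ) : ℂ))
      (fun v => A v (ordA K v (c₁ g g') + j * e v, ordA K v (c₂ g g')))
      (fun w => sgnR (n w) ((reU K w (hR w) (c₁ g g') : ℝˣ) : ℝ)
            ((reU K w (hR w) (c₂ g g') : ℝˣ) : ℝ)
          * ((Real.sqrt (|((reU K w (hR w) (c₁ g g') : ℝˣ) : ℝ)|
                * |((reU K w (hR w) (c₂ g g') : ℝˣ) : ℝ)|) : ℝ) : ℂ))
      (fun w => ((Real.sqrt (w (α : K)) : ℝ) : ℂ))
      (fun w => β w (Real.log |((reU K w (hR w) (c₁ g g') : ℝˣ) : ℝ)|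
            + j * Real.log (w (α : K)),
          Real.log |((reU K w (hR w) (c₂ g g') : ℝˣ) : ℝ)|)) j hpf
    rw [← key]
    congr 2
    · congr 1
      refine Finset.prod_congr rfl fun v _ => ?_
      push_cast
      ring
    · refine Finset.prod_congr rfl fun w _ => ?_
      push_cast
      ring
  · rw [if_neg hex, zero_mul]
    have hzero : (fun x : Adl K => pureFnR K hR 𝔫 P f₀ F (g⁻¹ * unip K x * torK K α ^ j * g'))
        = fun _ => (0 : ℂ) := by
      funext x
      rw [hP x, if_neg (fun h => hex ⟨j, _, h⟩)]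
      simp
    rw [hzero]
    exact ⟨integrable_zero _ _ _, integral_zero _ _⟩

end Fermat.Agent.LT.T3.R

end
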