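import Fermat.Agent.LT.T3.R.Top
import Fermat.Agent.LT.T3.R.NIntTop
import Fermat.Agent.LT.T3.M.ClosedM

/-!
# Row LT, tower T3, station T3.18R (architect helper14): STATE OF THE STATION

OFF-MAIN.  Complete proofs, nothing assumed.  On the closed tower T3, the closed tower T1 and the
closed station T3.18M (`M/ClosedM.lean`).

`OpenR K` = the leaves of the station which are still open (registry rows 2298--2307 and the
input `InHaarRC`).  Everything else is discharged here:

* REUSED from the closed stations, as they are: `AS.SatakeLocC`, `M.EKCoreC`, `M.FtPureC`,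
  N.1 `IwasawaFormC`, N.4 `AffineC`, M.6 `OutsideCosetMC`, M.8 `LocValFinMC`, `EKKillC`,
  `EKStarC`, `InScalarUnifC`, `InAddHaarC`.
* PROVED tops: `nIntR_of`, `abelSatakeR_of`, `ekOpExistR_of`, `ekOpExistMeanR_of`.
-/

set_option autoImplicit false
set_option linter.style.haveILetI false

open IsDedekindDomain NumberField MeasureTheory
open Fermat.Agent.LT.H556.A0

noncomputable section

namespace Fermat.Agent.LT.T3.R

open Fermat.Agent.LT.T3.AS Fermat.Agent.LT.T3.M

variable (K : Type) [Field K] [NumberField K]

/-- THE OPEN PART of station T3.18R, for the output `EKOpExistRC` (abstract local classes). -/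
structure OpenR : Prop where
  /-- R.1 (registry 2298). -/
  abelReal : AbelRealC
  /-- R.3 (registry 2300). -/
  pureReg : PureRegRC K
  /-- R.4 (registry 2301). -/
  rOp : ROpRC K
  /-- R.5 (registry 2302). -/
  pureUpper : PureUpperRC K
  /-- R.6 (registry 2303). -/
  split : SplitRC K
  /-- R.7 (registry 2304). -/
  locValInf : LocValInfRC K
  /-- R.8 (registry 2305). -/
  prodForm : ProdFormRC K
  /-- R.9 (registry 2306). -/
  type : TypeRC K

/-- THE OPEN PART for the output `EKOpExistMeanRC` (joint eigenfunctions of the circle means). -/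
structure OpenMeanR : Prop extends OpenR K where
  /-- R.2 (registry 2299). -/
  meanActs : MeanActsRC
  /-- R.10 (registry 2307). -/
  locOfMean : LocOfMeanRC K
  /-- INPUT: a Haar measure of `GL₂(ℝ)`. -/
  haarR : InHaarRC

/-- The `N`-integral at real places from the open leaves. -/
theorem nIntR_of_open (O : OpenR K) : NIntRC K :=
  nIntR_of K (H543.iwasawaFormC_of_h543 K (T1.t1Out K).iwasawa) O.pureUpper
    (openM_c K).outsideCoset (H162.affineC162 K (T1.t1Out K).locComp) O.split
    (openM_c K).locValFin O.locValInf O.prodForm

/-- The Abel--Satake pair at real places from the open leaves. -/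
theorem abelSatakeR_of_open (O : OpenR K) : AbelSatakeRC K :=
  abelSatakeR_of K (satakeLoc_closed K) O.abelReal (openM_c K).ftPure O.pureReg
    (nIntR_of_open K O) O.rOp

/-- **THE OUTPUT of station T3.18R from the open leaves.** -/
theorem ekOpExistR_of_open (O : OpenR K) : EKOpExistRC K :=
  ekOpExistR_of K (abelSatakeR_of_open K O) (openM_c K).core (inScalarUnif_u K) (ekKill_u K)
    (ekStar_u K) (inAddHaar_u K) O.type

/-- **THE OUTPUT for the joint eigenfunctions of the circle means from the open leaves.** -/
theorem ekOpExistMeanR_of_open (O : OpenMeanR K) : EKOpExistMeanRC K :=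
  ekOpExistMeanR_of K (ekOpExistR_of_open K O.toOpenR) O.meanActs O.locOfMean O.haarR

end Fermat.Agent.LT.T3.R

end
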