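import Fermat.Agent.LT.T3.R.ClosedR
import Fermat.Agent.LT.T3.R.H321.ROpR

/-!
# Row LT, tower T3, station T3.18R (architect helper14): THE STATION IS CLOSED, UNCONDITIONAL

OFF-MAIN.  Complete proofs, nothing assumed.  The last leaf R.4 `ROpRC` (registry 2301) is
`H321.rOpRC321` (helper321, `R/H321/ROpR.lean`, byte-identical copy); with `R/ClosedR.lean`:

* `openR_c K : OpenR K`, `openMeanR_c K : OpenMeanR K` (every leaf of `R/Spec.lean`);
* `abelSatakeR_c K : AbelSatakeRC K` (the Abel--Satake pair at real places, with `pairSpanR`);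
* **`ekOpExistR_c K : EKOpExistRC K`** = THE OUTPUT of station T3.18R: Eisenstein-killing test
  functions over a totally real field (`ℚ`), `K_∞`-types of weights `0, ±1`, T5 vocabulary,
  abstract local classes;
* **`ekOpExistMeanR_c K : EKOpExistMeanRC K`** = the same for the joint eigenfunctions of the
  circle means.
-/

set_option autoImplicit false
set_option linter.style.haveILetI false

open IsDedekindDomain NumberField MeasureTheory
open Fermat.Agent.LT.H556.A0

noncomputable section

namespace Fermat.Agent.LT.T3.R

open Fermat.Agent.LT.T3.AS Fermat.Agent.LT.T3.M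

variable (K : Type) [Field K] [NumberField K]

/-- **R.4 CLOSED** (helper321). -/
theorem rOpR_c : ROpRC K := H321.rOpRC321 K

/-- Every leaf of station T3.18R (output `EKOpExistRC`). -/
theorem openR_c : OpenR K := openR_of_rOp K (rOpR_c K)

/-- Every leaf of station T3.18R (output `EKOpExistMeanRC`). -/
theorem openMeanR_c : OpenMeanR K := openMeanR_of_rOp K (rOpR_c K)

/-- **The Abel--Satake pair at real places, UNCONDITIONAL.** -/
theorem abelSatakeR_c : AbelSatakeRC K := abelSatakeR_of_rOp K (rOpR_c K)

/-- **THE OUTPUT of station T3.18R, UNCONDITIONAL.** -/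
theorem ekOpExistR_c : EKOpExistRC K := ekOpExistR_of_rOp K (rOpR_c K)

/-- **THE OUTPUT for the joint eigenfunctions of the circle means, UNCONDITIONAL.** -/
theorem ekOpExistMeanR_c : EKOpExistMeanRC K := ekOpExistMeanR_of_rOp K (rOpR_c K)

end Fermat.Agent.LT.T3.R

end
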